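import Mathlib
import Fermat.Agent.Deuring.Genus
import Fermat.Agent.Deuring.Red

/-!
# Lifting sections at good reduction
-/

set_option autoImplicit false
set_option linter.unusedSectionVars false

open AlgebraicCurve Module WithZero
open scoped IntermediateField
open Fermat.Agent.FF Fermat.Agent.RR Fermat.Agent.Deuring

noncomputable section

namespace Fermat.Agent.TwoGauss

section Eff

variable {K F : Type*} [Field K] [Field F] [Algebra K F] [IsFF K F] [IsAlgClosed K]

theorem eq_zero_of_degree_zero {D : Divisor K F} (hD : 0 ≤ D) (h : Divisor.degree D = 0) :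
    D = 0 := by
  ext v
  by_contra hv
  have h1 : 0 ≤ D v := hD v
  have h2 : 1 ≤ D v := by
    simp only [Finsupp.zero_apply] at hv
    omega
  have h3 : 0 ≤ D - Finsupp.single v 1 := by
    intro w
    rw [Finsupp.sub_apply, Finsupp.zero_apply]
    rcases eq_or_ne w v with rfl | hw
    · rw [Finsupp.single_eq_same]; omega
    · rw [Finsupp.single_eq_of_ne hw, sub_zero]
      exact hD w
  have h4 := degree_nonneg h3
  rw [map_sub, h, degree_single_one] at h4
  omega

end Eff

section Good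

variable {K F k F' : Type*} [Field K] [Field F] [Field k] [Field F'] [Algebra K F] [Algebra k F']
  [IsFF K F] [IsFF k F'] [IsAlgClosed K] [IsAlgClosed k] {G : GaussData K F k F'}

theorem r_pole (R : RedMap G) {j : F} (hj : j ∈ G.O) (hjt : Transcendental k (G.ρ ⟨j, hj⟩))
    (hdeg : finrank K⟮j⟯ F = finrank k⟮G.ρ ⟨j, hj⟩⟯ F') :
    R.r (pole j) = pole (G.ρ ⟨j, hj⟩) := by
  have hj0 : G.ρ ⟨j, hj⟩ ≠ 0 := by
    intro h
    rw [h] at hjt
    exact hjt (isAlgebraic_zero)
  have hjt' : Transcendental K j := G.transcendental_of_ρ ⟨j, hj⟩ hjt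
  have h1 : (0 : Divisor k F') ≤ R.r (pole j) := by
    refine R.nonneg _ fun v => ?_
    rw [pole_apply]
    exact le_max_right _ _
  have h2 : (0 : Divisor k F') ≤ div (G.ρ ⟨j, hj⟩) + R.r (pole j) := by
    rw [← R.r_div j hj hj0, ← map_add]
    refine R.nonneg _ fun v => ?_
    rw [Finsupp.add_apply, pole_apply, div_apply]
    change 0 ≤ _
    have := le_max_left (-v.ord j) 0
    omega
  have h3 : (0 : Divisor k F') ≤ R.r (pole j) - pole (G.ρ ⟨j, hj⟩) := by
    intro v
    have e1 := h1 v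
    have e2 := h2 v
    rw [Finsupp.add_apply, div_apply] at e2
    rw [Finsupp.sub_apply, pole_apply]
    change 0 ≤ _ at e1
    change 0 ≤ _ at e2
    change 0 ≤ _
    rcases max_choice (-v.ord (G.ρ ⟨j, hj⟩)) 0 with h | h <;> rw [h] <;> omega
  have h4 := eq_zero_of_degree_zero h3 (by
    rw [map_sub, R.degree_r, degree_pole hjt', degree_pole hjt, hdeg, sub_self])
  exact sub_eq_zero.mp h4

theorem exists_good (hg : genusFF K F ≤ genusFF k F') {j : F} (hj : j ∈ G.O)
    (hjt : Transcendental k (G.ρ ⟨j, hj⟩))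
    (hdeg : finrank K⟮j⟯ F = finrank k⟮G.ρ ⟨j, hj⟩⟯ F')
    (hpos : 0 < finrank K⟮j⟯ F) :
    ∃ c₀ : ℕ, ∀ c : ℕ, c₀ ≤ c →
    ∀ b : F', (∀ v : Place k F', v.adicValuation b ≤
      exp (c * max (-v.ord (G.ρ ⟨j, hj⟩)) 0)) →
    ∃ (f : F) (hf : f ∈ G.O), (∀ v : Place K F, v.adicValuation f ≤
      exp (c * max (-v.ord j) 0)) ∧ G.ρ ⟨f, hf⟩ = b := by
  obtain ⟨R, hR⟩ := G.exists_redMap_of_le hg
  have hjt' : Transcendental K j := G.transcendental_of_ρ ⟨j, hj⟩ hjt
  refine ⟨2 * genusFF K F, fun c hc b hb => ?_⟩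
  have h1 : R.n₀ ≤ Divisor.degree (c • (pole j : Divisor K F)) := by
    rw [map_nsmul, degree_pole hjt', hR, nsmul_eq_mul]
    have h2 : ((2 * genusFF K F : ℕ) : ℤ) ≤ c := by exact_mod_cast hc
    have h3 : (1 : ℤ) ≤ finrank K⟮j⟯ F := by exact_mod_cast hpos
    push_cast at h2
    have h4 : (0 : ℤ) ≤ c := by positivity
    nlinarith
  have h2 := R.redSpace_L _ h1
  rw [map_nsmul, r_pole R hj hjt hdeg] at h2
  have h3 : b ∈ G.redSpace (riemannRochSpace (c • (pole j : Divisor K F))) := by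
    rw [h2]
    intro v
    refine (hb v).trans_eq ?_
    rw [Finsupp.smul_apply, pole_apply, nsmul_eq_mul]
  obtain ⟨f, hf, hfO, hfb⟩ := h3
  refine ⟨f, hfO, fun v => (hf v).trans_eq ?_, hfb⟩
  rw [Finsupp.smul_apply, pole_apply, nsmul_eq_mul]

end Good

end Fermat.Agent.TwoGauss
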