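import Mathlib
import Fermat.Prelude.Def_ModularCurve_X0
import Fermat.Prelude.Def_ModularCurve_X0ModL
import Fermat.Prelude.Def_ModularCurve_LaurentCoeff
import Fermat.Prelude.Def_ModularCurve_JqCoeff
import Fermat.Agent.X0Emb.JExp

/-!
# Relations between the `j (q ^ d)`, `d ∣ m q`, are stable under the partial Atkin--Lehner swap
-/

set_option autoImplicit false

open UpperHalfPlane Complex Function ModularCurve MatrixGroups
open Fermat.Agent.X0Emb Fermat.Agent.JLevelOne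

noncomputable section

namespace Fermat.Agent.TwoGauss

/-- divisors of `N` -/
abbrev Dv (N : ℕ) := {d : ℕ // d ∣ N}

instance Dv.neZero {N : ℕ} [NeZero N] (d : Dv N) : NeZero d.1 :=
  ⟨fun h => NeZero.ne N (Nat.eq_zero_of_zero_dvd (h ▸ d.2))⟩

/-- the Laurent series `j (q ^ d)` -/
def jd (R : Type*) [CommRing R] (d : ℕ) [NeZero d] : LaurentSeries R := qExpand R d (jqModC R)

theorem coeffMap_jd {R S : Type*} [CommRing R] [CommRing S] (f : R →+* S) (d : ℕ) [NeZero d] :
    coeffMap f (jd R d) = jd S d := coeffMap_jqNModC f d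

/-! ### The swap of divisors -/

section Swap

variable {q m : ℕ}

/-- The swap `d ↔ d q` (`d ∣ m`) of divisors of `q m` -/
def swapD (q m : ℕ) (hq : q.Prime) (hm : ¬ q ∣ m) (d : Dv (m * q)) : Dv (m * q) :=
  if h : q ∣ d.1 then ⟨d.1 / q, (Nat.div_dvd_of_dvd h).trans d.2⟩
  else ⟨q * d.1, by
    have : d.1 ∣ m := (Nat.Coprime.dvd_of_dvd_mul_right
      ((Nat.Prime.coprime_iff_not_dvd hq).mpr h).symm d.2)
    exact (mul_dvd_mul_left q this).trans (dvd_of_eq (mul_comm q m))⟩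

theorem dvd_m_of_not_dvd (hq : q.Prime) {d : ℕ} (h : ¬ q ∣ d) (hd : d ∣ m * q) : d ∣ m :=
  Nat.Coprime.dvd_of_dvd_mul_right ((Nat.Prime.coprime_iff_not_dvd hq).mpr h).symm hd

theorem mul_dvd_level {d : ℕ} (hd : d ∣ m) : q * d ∣ m * q := by
  rw [mul_comm m q]; exact mul_dvd_mul_left q hd

theorem dvd_m_of_mul (hq : q.Prime) {d : ℕ} (hd : q * d ∣ m * q) : d ∣ m := by
  rw [mul_comm m q] at hd
  exact Nat.dvd_of_mul_dvd_mul_left hq.pos hd

theorem swapD_of_dvd_m (hq : q.Prime) (hm : ¬ q ∣ m) {d : ℕ} (hd : d ∣ m) (h : d ∣ m * q)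
    (h' : q * d ∣ m * q) : swapD q m hq hm ⟨d, h⟩ = ⟨q * d, h'⟩ := by
  rw [swapD, dif_neg (fun h1 => hm (h1.trans hd))]

theorem swapD_mul (hq : q.Prime) (hm : ¬ q ∣ m) {d : ℕ} (h' : q * d ∣ m * q) (h : d ∣ m * q) :
    swapD q m hq hm ⟨q * d, h'⟩ = ⟨d, h⟩ := by
  rw [swapD, dif_pos (dvd_mul_right q d)]
  exact Subtype.ext (Nat.mul_div_cancel_left d hq.pos)

theorem swapD_swapD (hq : q.Prime) (hm : ¬ q ∣ m) (d : Dv (m * q)) :
    swapD q m hq hm (swapD q m hq hm d) = d := by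
  obtain ⟨d, hd⟩ := d
  by_cases h : q ∣ d
  · obtain ⟨e, rfl⟩ := h
    have he : e ∣ m := dvd_m_of_mul hq hd
    rw [swapD_mul hq hm hd (he.trans (dvd_mul_right m q)), swapD_of_dvd_m hq hm he]
  · have he : d ∣ m := dvd_m_of_not_dvd hq h hd
    rw [swapD_of_dvd_m hq hm he hd (mul_dvd_level he), swapD_mul]

end Swap

/-! ### The function `P(j(d τ))` -/

section Fun

variable {N : ℕ} [NeZero N]

/-- `τ ↦ P (j (d τ))_d` -/
def evFun (P : MvPolynomial (Dv N) ℂ) (τ : ℍ) : ℂ :=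
  MvPolynomial.aeval (fun d : Dv N => jFun (aff d.1 0 1 τ)) P

theorem lexp_jd (d : ℕ) [NeZero d] : LExp 1 (fun τ => jFun (aff d 0 1 τ)) (jd ℂ d) := by
  have h := LExp.aff lexp_jFun d 0 1 d 1 (by ring)
  have h0 : zetaU 0 1 = 1 := by
    apply Units.ext
    simp [zetaU]
  have h1 : ∀ G : LaurentSeries ℂ, twist (1 : ℂˣ) G = G := by
    intro G
    ext n
    simp [twist_coeff]
  rw [h0, h1] at h
  simpa [jd] using h

theorem lexp_evFun (σ : Dv N → Dv N) (P : MvPolynomial (Dv N) ℂ) :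
    LExp 1 (fun τ => MvPolynomial.aeval (fun d : Dv N => jFun (aff (σ d).1 0 1 τ)) P)
      (MvPolynomial.aeval (fun d : Dv N => jd ℂ (σ d).1) P) := by
  induction P using MvPolynomial.induction_on with
  | C a =>
    have h := LExp.const 1 a
    have h2 : (algebraMap ℂ (LaurentSeries ℂ)) a = HahnSeries.C a := by
      rw [algebraMap_laurentSeries_eq_single]; rfl
    simpa [h2] using h
  | add P Q hP hQ =>
    have h := hP.add hQ
    simp only [map_add]
    exact h
  | mul_X P d hP =>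
    have h := hP.mul (lexp_jd (σ d).1)
    simp only [map_mul, MvPolynomial.aeval_X]
    exact h

end Fun

/-! ### The Atkin--Lehner substitution -/

section Main

variable {q m : ℕ} [NeZero (m * q)]

omit [NeZero (m * q)] in
theorem exists_bezout (hq : q.Prime) (hm : ¬ q ∣ m) : ∃ x y : ℤ, (q : ℤ) * x - m * y = 1 := by
  have h : IsCoprime (q : ℤ) (m : ℤ) := by
    rw [Nat.isCoprime_iff_coprime]
    exact (Nat.Prime.coprime_iff_not_dvd hq).mpr hm
  obtain ⟨a, b, hab⟩ := h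
  exact ⟨a, -b, by linear_combination hab⟩

/-- a matrix of `SL(2, ℤ)` -/
def mk2 (a b c d : ℤ) (h : a * d - b * c = 1) : SL(2, ℤ) :=
  ⟨!![a, b; c, d], by rw [Matrix.det_fin_two_of]; exact h⟩

theorem coe_mk2_smul (a b c d : ℤ) (h : a * d - b * c = 1) (τ : ℍ) :
    ((mk2 a b c d h • τ : ℍ) : ℂ) = ((a : ℂ) * τ + b) / (c * τ + d) := by
  rw [UpperHalfPlane.specialLinearGroup_apply]
  simp [mk2]

theorem mk2_denom_ne (a b c d : ℤ) (h : a * d - b * c = 1) (τ : ℍ) :
    (c : ℂ) * τ + d ≠ 0 := by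
  have h1 := UpperHalfPlane.linear_ne_zero (cd := ![(c : ℝ), (d : ℝ)]) τ (by
    intro h0
    have hc : (c : ℝ) = 0 := congrFun h0 0
    have hd : (d : ℝ) = 0 := congrFun h0 1
    have hc' : c = 0 := by exact_mod_cast hc
    have hd' : d = 0 := by exact_mod_cast hd
    rw [hc', hd'] at h
    simp at h)
  simpa using h1

/-- the Atkin--Lehner substitution -/
def atkW (x y : ℤ) (h : x * q - y * m = 1) [NeZero q] (τ : ℍ) : ℍ :=
  mk2 x y m q h • aff q 0 1 τ

omit [NeZero (m * q)] in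
theorem aff_atkW (x y : ℤ) (h : x * q - y * m = 1) [NeZero q] (d m' : ℕ) [NeZero d]
    (hd : m = d * m') [NeZero (q * d)] (τ : ℍ) :
    aff d 0 1 (atkW x y h τ) =
      mk2 x (d * y) m' q (by rw [hd] at h; push_cast at h; linear_combination h) •
        aff (q * d) 0 1 τ := by
  apply UpperHalfPlane.ext
  rw [coe_mk2_smul, coe_aff, atkW, coe_mk2_smul, coe_aff, coe_aff]
  have h1 := mk2_denom_ne x y m q h (aff q 0 1 τ)
  rw [coe_aff] at h1
  have hd0 : (d : ℂ) ≠ 0 := by exact_mod_cast NeZero.ne d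
  have h2 : (m : ℂ) = d * m' := by exact_mod_cast hd
  push_cast at h1 ⊢
  rw [h2] at h1 ⊢
  have h3 : (m' : ℂ) * ((q * d * τ + 0) / 1) + q ≠ 0 := by
    intro h4; apply h1; linear_combination h4
  field_simp at h1 h3 ⊢
  ring_nf

omit [NeZero (m * q)] in
theorem aff_atkW' (x y : ℤ) (h : x * q - y * m = 1) [NeZero q] (d m' : ℕ) [NeZero d]
    (hd : m = d * m') [NeZero (q * d)] (τ : ℍ) :
    aff (q * d) 0 1 (atkW x y h τ) =
      mk2 (x * q) (d * y) m' 1 (by rw [hd] at h; push_cast at h; linear_combination h) •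
        aff d 0 1 τ := by
  apply UpperHalfPlane.ext
  rw [coe_mk2_smul, coe_aff, atkW, coe_mk2_smul, coe_aff, coe_aff]
  have h1 := mk2_denom_ne x y m q h (aff q 0 1 τ)
  rw [coe_aff] at h1
  have hd0 : (d : ℂ) ≠ 0 := by exact_mod_cast NeZero.ne d
  have hq0 : (q : ℂ) ≠ 0 := by exact_mod_cast NeZero.ne q
  have h2 : (m : ℂ) = d * m' := by exact_mod_cast hd
  push_cast at h1 ⊢
  rw [h2] at h1 ⊢
  have h3 : (m' : ℂ) * ((d * τ + 0) / 1) + 1 ≠ 0 := by
    intro h4; apply h1; linear_combination (q : ℂ) * h4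
  have h5 : (d : ℂ) * m' * ((q * τ + 0) / 1) + q = q * (m' * ((d * τ + 0) / 1) + 1) := by ring
  rw [h5]
  field_simp
  ring_nf

omit [NeZero (m * q)] in
theorem jFun_aff_atkW (x y : ℤ) (h : x * q - y * m = 1) [NeZero q] (d : ℕ) [NeZero d]
    (hd : d ∣ m) [NeZero (q * d)] (τ : ℍ) :
    jFun (aff d 0 1 (atkW x y h τ)) = jFun (aff (q * d) 0 1 τ) := by
  obtain ⟨m', hm'⟩ := hd
  rw [aff_atkW x y h d m' hm', jFun_smul]

omit [NeZero (m * q)] in
theorem jFun_aff_atkW' (x y : ℤ) (h : x * q - y * m = 1) [NeZero q] (d : ℕ) [NeZero d]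
    (hd : d ∣ m) [NeZero (q * d)] (τ : ℍ) :
    jFun (aff (q * d) 0 1 (atkW x y h τ)) = jFun (aff d 0 1 τ) := by
  obtain ⟨m', hm'⟩ := hd
  rw [aff_atkW' x y h d m' hm', jFun_smul]

theorem jFun_aff_swap (hq : q.Prime) (hm : ¬ q ∣ m) (x y : ℤ) (h : x * q - y * m = 1) [NeZero q]
    (d : Dv (m * q)) (τ : ℍ) :
    jFun (aff d.1 0 1 (atkW x y h τ)) = jFun (aff (swapD q m hq hm d).1 0 1 τ) := by
  obtain ⟨d, hd⟩ := d
  by_cases hdq : q ∣ d
  · obtain ⟨e, rfl⟩ := hdq
    have he : e ∣ m := dvd_m_of_mul hq hd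
    have h1 := swapD_mul hq hm hd (he.trans (dvd_mul_right m q))
    haveI : NeZero (q * e) := Dv.neZero ⟨q * e, hd⟩
    haveI : NeZero e := Dv.neZero (N := m * q) ⟨e, he.trans (dvd_mul_right m q)⟩
    rw [jFun_aff_atkW' x y h e he]
    congr 2
    rw [h1]
  · have he : d ∣ m := dvd_m_of_not_dvd hq hdq hd
    have h1 := swapD_of_dvd_m hq hm he hd (mul_dvd_level he)
    haveI : NeZero d := Dv.neZero ⟨d, hd⟩
    haveI : NeZero (q * d) := Dv.neZero (N := m * q) ⟨q * d, mul_dvd_level he⟩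
    rw [jFun_aff_atkW x y h d he]
    congr 2
    rw [h1]

/-- Relations are preserved by the swap (over `ℂ`). -/
theorem relation_swap_complex (hq : q.Prime) (hm : ¬ q ∣ m) (P : MvPolynomial (Dv (m * q)) ℂ)
    (h0 : MvPolynomial.aeval (fun d : Dv (m * q) => jd ℂ d.1) P = 0) :
    MvPolynomial.aeval (fun d : Dv (m * q) => jd ℂ (swapD q m hq hm d).1) P = 0 := by
  obtain ⟨x, y, hxy⟩ := exists_bezout hq hm
  haveI : NeZero q := ⟨hq.ne_zero⟩
  have h : x * q - y * m = 1 := by linear_combination hxy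
  have h1 := lexp_evFun (N := m * q) id P
  simp only [id] at h1
  rw [h0] at h1
  have h2 := h1.funext (LExp.zero 1)
  have h3 := lexp_evFun (N := m * q) (swapD q m hq hm) P
  have h4 : (fun τ => MvPolynomial.aeval
      (fun d : Dv (m * q) => jFun (aff (swapD q m hq hm d).1 0 1 τ)) P) = 0 := by
    funext τ
    have h5 := congrFun h2 (atkW x y h τ)
    have e : (fun d : Dv (m * q) => jFun (aff (swapD q m hq hm d).1 0 1 τ)) =
        fun d => jFun (aff d.1 0 1 (atkW x y h τ)) :=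
      funext fun d => (jFun_aff_swap hq hm x y h d τ).symm
    rw [e]
    exact h5
  rw [h4] at h3
  exact h3.eq_zero one_pos

/-- Relations are preserved by the swap. -/
theorem relation_swap {K : Type*} [Field K] (ι : K →+* ℂ) (hq : q.Prime) (hm : ¬ q ∣ m)
    (P : MvPolynomial (Dv (m * q)) K)
    (h0 : MvPolynomial.aeval (fun d : Dv (m * q) => jd K d.1) P = 0) :
    MvPolynomial.aeval (fun d : Dv (m * q) => jd K (swapD q m hq hm d).1) P = 0 := by
  have key : ∀ (σ : Dv (m * q) → Dv (m * q)) (P : MvPolynomial (Dv (m * q)) K),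
      coeffMap ι (MvPolynomial.aeval (fun d : Dv (m * q) => jd K (σ d).1) P) =
      MvPolynomial.aeval (fun d : Dv (m * q) => jd ℂ (σ d).1) (MvPolynomial.map ι P) := by
    intro σ P
    induction P using MvPolynomial.induction_on with
    | C a =>
      simp only [MvPolynomial.map_C, MvPolynomial.aeval_C]
      rw [algebraMap_laurentSeries_eq_single, algebraMap_laurentSeries_eq_single, coeffMap_single]
    | add P Q hP hQ => simp only [map_add, hP, hQ]
    | mul_X P d hP =>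
      simp only [map_mul, hP, MvPolynomial.aeval_X, MvPolynomial.map_X]
      rw [coeffMap_jd]
  have hinj : Function.Injective (coeffMap ι) := by
    intro a b hab
    ext n
    apply ι.injective
    rw [← coeffMap_coeff, ← coeffMap_coeff, hab]
  apply hinj
  rw [key, map_zero]
  apply relation_swap_complex hq hm
  have := key id P
  simp only [id] at this
  rw [← this, h0, map_zero]

end Main

end Fermat.Agent.TwoGauss
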