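import Mathlib

/-!
# Involutions of function fields given by permuting generators
-/

set_option autoImplicit false

open IntermediateField
open scoped IntermediateField.algebraAdjoinAdjoin

namespace Fermat.Agent.TwoGauss

/-- If the algebraic relations between the generators `x i` of a field `F / K` are stable under an
involution `σ` of the index set, there is an involution of `F / K` mapping `x i` to `x (σ i)`. -/
theorem exists_swapEquiv {K L ι : Type*} [Field K] [Field L] [Algebra K L] (x : ι → L)
    (σ : ι → ι) (hσ : ∀ i, σ (σ i) = i)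
    (h : ∀ P : MvPolynomial ι K, MvPolynomial.aeval x P = 0 →
      MvPolynomial.aeval (fun i => x (σ i)) P = 0)
    (F : IntermediateField K L) (hF : F = adjoin K (Set.range x)) (hx : ∀ i, x i ∈ F) :
    ∃ w : F ≃ₐ[K] F, (∀ i, w ⟨x i, hx i⟩ = ⟨x (σ i), hx _⟩) ∧ ∀ f, w (w f) = f := by
  classical
  subst hF
  -- the subalgebra generated by the `x i`
  have hR : Algebra.adjoin K (Set.range x) = (MvPolynomial.aeval x : MvPolynomial ι K →ₐ[K] L).range :=
    Algebra.adjoin_range_eq_range_aeval K x
  let φ : MvPolynomial ι K →ₐ[K] Algebra.adjoin K (Set.range x) := (MvPolynomial.aeval x : MvPolynomial ι K →ₐ[K] L).codRestrict _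
    (fun P => by rw [hR]; exact ⟨P, rfl⟩)
  have hφ : ∀ P, ((φ P : Algebra.adjoin K (Set.range x)) : L) = MvPolynomial.aeval x P := fun P => rfl
  have hsurj : Function.Surjective φ := by
    rintro ⟨y, hy⟩
    have hy' := hy
    rw [hR] at hy'
    obtain ⟨P, hP⟩ := hy'
    exact ⟨P, Subtype.ext hP⟩
  let g : MvPolynomial ι K →ₐ[K] (adjoin K (Set.range x)) :=
    MvPolynomial.aeval (fun i => (⟨x (σ i), hx _⟩ : adjoin K (Set.range x)))
  have hg : ∀ P, ((g P : adjoin K (Set.range x)) : L) = MvPolynomial.aeval (fun i => x (σ i)) P := by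
    intro P
    have : ((adjoin K (Set.range x)).val.comp g) = MvPolynomial.aeval (fun i => x (σ i)) := by
      ext i; simp [g]
    exact DFunLike.congr_fun this P
  have hker : RingHom.ker φ ≤ RingHom.ker g := by
    intro P hP
    rw [RingHom.mem_ker] at hP ⊢
    apply Subtype.ext
    rw [hg]
    exact h P (by rw [← hφ, hP]; rfl)
  let ψ : Algebra.adjoin K (Set.range x) →ₐ[K] (adjoin K (Set.range x)) := AlgHom.liftOfSurjective φ hsurj g hker
  have hψ : ∀ P, ψ (φ P) = g P := fun P => AlgHom.liftOfSurjective_apply φ hsurj g hker P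
  have hinj : Function.Injective ψ := by
    rw [injective_iff_map_eq_zero]
    intro a ha
    obtain ⟨P, rfl⟩ := hsurj a
    rw [hψ] at ha
    have h1 : MvPolynomial.aeval (fun i => x (σ i)) P = 0 := by rw [← hg, ha]; rfl
    have h2 : MvPolynomial.aeval x (MvPolynomial.rename σ P) = 0 := by
      rw [MvPolynomial.aeval_rename]; exact h1
    have h3 := h _ h2
    rw [MvPolynomial.aeval_rename] at h3
    have h4 : ((fun i => x (σ i)) ∘ σ) = x := by
      funext i; simp [hσ]
    rw [h4] at h3
    exact Subtype.ext h3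
  let w : (adjoin K (Set.range x)) →ₐ[K] (adjoin K (Set.range x)) :=
    IsFractionRing.liftAlgHom (K := adjoin K (Set.range x)) (A := Algebra.adjoin K (Set.range x)) (g := ψ) hinj
  have hw : ∀ a : Algebra.adjoin K (Set.range x), w (algebraMap (Algebra.adjoin K (Set.range x)) (adjoin K (Set.range x)) a) = ψ a :=
    fun a => IsFractionRing.lift_algebraMap (K := adjoin K (Set.range x)) hinj a
  have hwx : ∀ i, w ⟨x i, hx i⟩ = ⟨x (σ i), hx _⟩ := by
    intro i
    have h1 : (⟨x i, hx i⟩ : adjoin K (Set.range x)) =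
        algebraMap (Algebra.adjoin K (Set.range x)) (adjoin K (Set.range x)) (φ (MvPolynomial.X i)) := by
      apply Subtype.ext
      change x i = ((φ (MvPolynomial.X i) : Algebra.adjoin K (Set.range x)) : L)
      rw [hφ, MvPolynomial.aeval_X]
    rw [h1, hw, hψ]
    simp [g]
  have hww : w.comp w = AlgHom.id K _ := by
    apply IntermediateField.algHom_ext_of_eq_adjoin K rfl
    rintro y hy
    obtain ⟨i, rfl⟩ := hy
    change w (w ⟨x i, _⟩) = ⟨x i, _⟩
    rw [hwx, hwx]
    simp [hσ]
  exact ⟨AlgEquiv.ofAlgHom w w hww hww, hwx, fun f => DFunLike.congr_fun hww f⟩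

end Fermat.Agent.TwoGauss
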