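import Mathlib
import Fermat.Prelude.Def_ModularCurve_X0
import Fermat.Prelude.Def_ModularCurve_X0ModL
import Fermat.Prelude.Def_ModularCurve_LaurentCoeff
import Fermat.Prelude.Def_ModularCurve_JqCoeff
import Fermat.Prelude.Def_ModularCurve_ArithmeticGalois
import Fermat.Prelude.Def_ModularCurve_HeckeOperator
import Fermat.Prelude.Def_GaloisRep_ComplexConjugation
import Fermat.Agent.TwoGauss.Swap
import Fermat.Agent.TwoGauss.Relation

/-!
# The partial Atkin--Lehner involution `w_q` of the function field of `X₀(m q)`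
-/

set_option autoImplicit false

open ModularCurve IntermediateField AlgebraicCurve

noncomputable section

namespace Fermat.Agent.TwoGauss

section Generators

variable (K : Type*) [Field K]

theorem jd_mem_fullC (N : ℕ) {d : ℕ} [NeZero d] (hd : d ∣ N) :
    jd K d ∈ modularFunctionFieldFullC K N := jqModCd_mem_full K N hd

theorem fullC_eq_adjoin_range (N : ℕ) [NeZero N] :
    modularFunctionFieldFullC K N = adjoin K (Set.range (fun d : Dv N => jd K d.1)) := by
  rw [modularFunctionFieldFullC]
  congr 1
  ext x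
  constructor
  · rintro ⟨d, hne, hd, rfl⟩
    exact ⟨⟨d, hd⟩, rfl⟩
  · rintro ⟨d, rfl⟩
    exact ⟨d.1, inferInstance, d.2, rfl⟩

variable [Algebra ℚ K]

theorem coeffEmb_jd (d : ℕ) [NeZero d] : coeffEmb K (jd ℚ d) = jd K d := coeffMap_jd _ d

/-- the base change of the function field of `X₀(N)` is generated by the `j (q ^ d)` -/
theorem laurentBaseChange_full (N : ℕ) :
    laurentBaseChange K (modularFunctionFieldFull N) = modularFunctionFieldFullC K N := by
  apply le_antisymm
  · rw [laurentBaseChange, IntermediateField.adjoin_le_iff]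
    rintro _ ⟨x, hx, rfl⟩
    change x ∈ modularFunctionFieldFull N at hx
    rw [modularFunctionFieldFull] at hx
    induction hx using IntermediateField.adjoin_induction with
    | mem y hy =>
      obtain ⟨d, hne, hd, rfl⟩ := hy
      change coeffEmb K (jd ℚ d) ∈ _
      rw [coeffEmb_jd]
      exact jd_mem_fullC K N hd
    | algebraMap a =>
      change coeffEmb K (algebraMap ℚ (LaurentSeries ℚ) a) ∈ _
      have : coeffEmb K (algebraMap ℚ (LaurentSeries ℚ) a) =
          algebraMap K (LaurentSeries K) (algebraMap ℚ K a) := by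
        rw [algebraMap_laurentSeries_eq_single, algebraMap_laurentSeries_eq_single, coeffEmb,
          coeffMap_single]
      rw [this]
      exact (modularFunctionFieldFullC K N).algebraMap_mem _
    | add y z _ _ hy hz =>
      change coeffEmb K (y + z) ∈ _
      rw [map_add]
      exact add_mem hy hz
    | inv y _ hy =>
      change coeffEmb K (y⁻¹) ∈ _
      rw [map_inv₀]
      exact inv_mem hy
    | mul y z _ _ hy hz =>
      change coeffEmb K (y * z) ∈ _
      rw [map_mul]
      exact mul_mem hy hz
  · rw [modularFunctionFieldFullC, IntermediateField.adjoin_le_iff]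
    rintro _ ⟨d, hne, hd, rfl⟩
    change jd K d ∈ _
    rw [← coeffEmb_jd]
    exact coeffEmb_mem_laurentBaseChange K (jqd_mem_full N hd)

/-- the function field of `X₀(N)` with constants extended to `K` -/
abbrev FB (N : ℕ) : IntermediateField K (LaurentSeries K) :=
  laurentBaseChange K (modularFunctionFieldFull N)

theorem jd_mem (N : ℕ) {d : ℕ} [NeZero d] (hd : d ∣ N) : jd K d ∈ FB K N := by
  rw [FB, laurentBaseChange_full]; exact jd_mem_fullC K N hd

theorem FB_eq_adjoin_range (N : ℕ) [NeZero N] :
    FB K N = adjoin K (Set.range (fun d : Dv N => jd K d.1)) := by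
  rw [FB, laurentBaseChange_full, fullC_eq_adjoin_range]

/-- the element `j (q ^ d)` of the function field -/
def jdB (N : ℕ) [NeZero N] (d : Dv N) : FB K N := ⟨jd K d.1, jd_mem K N d.2⟩

@[simp]
theorem coe_jdB (N : ℕ) [NeZero N] (d : Dv N) : ((jdB K N d : FB K N) : LaurentSeries K) = jd K d.1 :=
  rfl

variable {K}

/-- algebra homomorphisms out of the function field are determined by the `j (q ^ d)` -/
theorem FB_algHom_ext {N : ℕ} [NeZero N] {E : Type*} [Field E] [Algebra K E]
    {f g : FB K N →ₐ[K] E} (h : ∀ d : Dv N, f (jdB K N d) = g (jdB K N d)) : f = g := by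
  apply IntermediateField.algHom_ext_of_eq_adjoin K (FB_eq_adjoin_range K N)
  rintro _ ⟨d, rfl⟩
  exact h d

/-- ring homomorphisms out of the function field are determined by the constants and
`j (q ^ d)` -/
theorem FB_ringHom_ext {N : ℕ} [NeZero N] {E : Type*} [Field E]
    {f g : FB K N →+* E} (hc : ∀ c : K, f (algebraMap K _ c) = g (algebraMap K _ c))
    (h : ∀ d : Dv N, f (jdB K N d) = g (jdB K N d)) : f = g := by
  letI : Algebra K E := (f.comp (algebraMap K (FB K N))).toAlgebra
  let f' : FB K N →ₐ[K] E := { f with commutes' := fun c => rfl }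
  let g' : FB K N →ₐ[K] E := { g with commutes' := fun c => (hc c).symm }
  have : f' = g' := FB_algHom_ext h
  ext x
  exact DFunLike.congr_fun this x

end Generators

section AL

variable {K : Type*} [Field K] [Algebra ℚ K] {q m : ℕ} [NeZero (m * q)]

theorem exists_atkinLehner (ι : K →+* ℂ) (hq : q.Prime) (hm : ¬ q ∣ m) :
    ∃ w : FB K (m * q) ≃ₐ[K] FB K (m * q),
      (∀ d : Dv (m * q), w (jdB K _ d) = jdB K _ (swapD q m hq hm d)) ∧ ∀ f, w (w f) = f :=
  exists_swapEquiv (fun d : Dv (m * q) => jd K d.1) (swapD q m hq hm) (swapD_swapD hq hm)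
    (relation_swap ι hq hm) (FB K (m * q)) (FB_eq_adjoin_range K _) (fun d => jd_mem K _ d.2)

/-- an embedding of the algebraic numbers in `ℂ` -/
def iotaBar : AlgebraicClosure ℚ →+* ℂ := complexEmbedding.toRingHom

/-- the partial Atkin--Lehner involution -/
def wq (hq : q.Prime) (hm : ¬ q ∣ m) : modularFunctionFieldBar (m * q) ≃ₐ[AlgebraicClosure ℚ]
    modularFunctionFieldBar (m * q) :=
  (exists_atkinLehner iotaBar hq hm).choose

variable (hq : q.Prime) (hm : ¬ q ∣ m)

theorem wq_jdB (d : Dv (m * q)) :
    wq hq hm (jdB (AlgebraicClosure ℚ) _ d) = jdB _ _ (swapD q m hq hm d) :=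
  (exists_atkinLehner iotaBar hq hm).choose_spec.1 d

@[simp]
theorem wq_wq (f : modularFunctionFieldBar (m * q)) : wq hq hm (wq hq hm f) = f :=
  (exists_atkinLehner iotaBar hq hm).choose_spec.2 f

theorem wq_symm : (wq hq hm).symm = wq hq hm := by
  ext1 f
  rw [AlgEquiv.symm_apply_eq, wq_wq]

theorem wq_bijective : Function.Bijective (wq hq hm) := (wq hq hm).bijective

variable [NeZero m] [NeZero q]

theorem qExpand_jd {R : Type*} [CommRing R] (a b : ℕ) [NeZero a] [NeZero b] :
    qExpand R a (jd R b) = jd R (a * b) := qExpand_qExpand b a _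

theorem wq_alpha (f : modularFunctionFieldBar m) :
    wq hq hm (heckeAlphaBar (AlgebraicClosure ℚ) m q f) =
      heckeBetaBar (AlgebraicClosure ℚ) m q f := by
  have h : ((wq hq hm : modularFunctionFieldBar (m * q) →ₐ[AlgebraicClosure ℚ]
      modularFunctionFieldBar (m * q)).comp (heckeAlphaBar (AlgebraicClosure ℚ) m q)) =
      heckeBetaBar (AlgebraicClosure ℚ) m q := by
    apply FB_algHom_ext
    rintro ⟨d, hd⟩
    haveI : NeZero d := Dv.neZero ⟨d, hd⟩
    have h1 : heckeAlphaBar (AlgebraicClosure ℚ) m q (jdB _ m ⟨d, hd⟩) =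
        jdB _ (m * q) ⟨d, hd.trans (dvd_mul_right m q)⟩ := by
      apply Subtype.ext
      rw [coe_heckeAlphaBar]; rfl
    change wq hq hm (heckeAlphaBar (AlgebraicClosure ℚ) m q _) = _
    rw [h1, wq_jdB, swapD_of_dvd_m hq hm hd _ (mul_dvd_level hd)]
    apply Subtype.ext
    rw [coe_heckeBetaBar, coe_jdB, coe_jdB, qExpand_jd]
  exact DFunLike.congr_fun h f

theorem wq_beta (f : modularFunctionFieldBar m) :
    wq hq hm (heckeBetaBar (AlgebraicClosure ℚ) m q f) =
      heckeAlphaBar (AlgebraicClosure ℚ) m q f := by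
  rw [← wq_alpha hq hm, wq_wq]

omit [NeZero q] [NeZero m] in
theorem arithmeticRingAut_jdB (σ : AlgebraicClosure ℚ ≃ₐ[ℚ] AlgebraicClosure ℚ) {N : ℕ} [NeZero N]
    (d : Dv N) :
    arithmeticRingAut (modularFunctionFieldFull N) σ (jdB (AlgebraicClosure ℚ) N d) = jdB _ N d := by
  apply Subtype.ext
  rw [coe_arithmeticRingAut_apply, coe_jdB, coeffMap_jd]

omit [NeZero q] [NeZero m] in
/-- `w_q` is defined over `ℚ` -/
theorem wq_arithmetic (σ : AlgebraicClosure ℚ ≃ₐ[ℚ] AlgebraicClosure ℚ)
    (f : modularFunctionFieldBar (m * q)) :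
    wq hq hm (arithmeticRingAut (modularFunctionFieldFull (m * q)) σ f) =
      arithmeticRingAut (modularFunctionFieldFull (m * q)) σ (wq hq hm f) := by
  have h : ((wq hq hm : modularFunctionFieldBar (m * q) →+* modularFunctionFieldBar (m * q)).comp
      (arithmeticRingAut (modularFunctionFieldFull (m * q)) σ :
        modularFunctionFieldBar (m * q) →+* modularFunctionFieldBar (m * q))) =
      ((arithmeticRingAut (modularFunctionFieldFull (m * q)) σ :
        modularFunctionFieldBar (m * q) →+* modularFunctionFieldBar (m * q)).comp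
      (wq hq hm : modularFunctionFieldBar (m * q) →+* modularFunctionFieldBar (m * q))) := by
    apply FB_ringHom_ext
    · intro c
      change wq hq hm (arithmeticRingAut _ σ (algebraMap _ _ c)) =
        arithmeticRingAut _ σ (wq hq hm (algebraMap _ _ c))
      rw [arithmeticRingAut_algebraMap, AlgEquiv.commutes, AlgEquiv.commutes,
        arithmeticRingAut_algebraMap]
    · intro d
      change wq hq hm (arithmeticRingAut _ σ (jdB _ _ d)) =
        arithmeticRingAut _ σ (wq hq hm (jdB _ _ d))
      rw [arithmeticRingAut_jdB, wq_jdB, arithmeticRingAut_jdB]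
  exact DFunLike.congr_fun h f

end AL

end Fermat.Agent.TwoGauss
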