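import Mathlib
import Fermat.Agent.ModFun.JN
import Fermat.Agent.ModFun.Conv
import Fermat.Agent.X0Emb.Growth
import Fermat.Agent.TwoGauss.AtkinLehner

/-!
# A modular equation with degree bounds
-/

set_option autoImplicit false

open UpperHalfPlane Complex Function ModularCurve MatrixGroups Polynomial CongruenceSubgroup ModularForm
open Fermat.Agent.X0Emb Fermat.Agent.JLevelOne Fermat.Agent.ModFun
open scoped Manifold Topology

noncomputable section

local notation "𝕢" => Periodic.qParam

namespace Fermat.Agent.TwoGauss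

section Growth

theorem bdd_jd_smul (q : ℕ) [NeZero q] (σ : SL(2, ℤ)) :
    IsBoundedAtImInfty (fun τ : ℍ => ModFun.jd q (σ • τ) * discriminant τ ^ q) := by
  obtain ⟨a, b, d', ha, hd', h1, -, h3, -⟩ := exists_lexp_jd_smul q σ
  have hj := jFun_mul_q_bdd
  rw [isBoundedAtImInfty_iff] at hj ⊢
  obtain ⟨C, A, hC⟩ := hj
  obtain ⟨A', B, hA'1, hB⟩ := Fermat.Agent.X0Deg.exists_disc_bound
  have ha0 : (0 : ℝ) < a := by exact_mod_cast Nat.pos_of_ne_zero (NeZero.ne a)
  have ha1 : (1 : ℝ) ≤ a := by exact_mod_cast Nat.one_le_iff_ne_zero.mpr (NeZero.ne a)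
  have hd0 : (0 : ℝ) < d' := by exact_mod_cast Nat.pos_of_ne_zero (NeZero.ne d')
  have hd1 : (1 : ℝ) ≤ d' := by exact_mod_cast Nat.one_le_iff_ne_zero.mpr (NeZero.ne d')
  have hq0 : (0 : ℝ) < q := by exact_mod_cast Nat.pos_of_ne_zero (NeZero.ne q)
  have hq : (q : ℝ) = a * d' := by exact_mod_cast h1.symm
  refine ⟨C * B ^ q, max A' (q * max A 1), fun τ hτ => ?_⟩
  have hτ1 : A' ≤ τ.im := (le_max_left _ _).trans hτ
  have hτ2 : q * max A 1 ≤ τ.im := (le_max_right _ _).trans hτ
  have him : (aff a b d' τ).im = a * τ.im / d' := by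
    have : (((a : ℂ) * τ + b) / d').im = a * τ.im / d' := by
      rw [Complex.div_natCast_im]; simp
    exact this
  have hAim : A ≤ (aff a b d' τ).im := by
    rw [him, le_div_iff₀ hd0]
    have h5 : max A 1 * d' ≤ a * τ.im := by
      calc max A 1 * d' ≤ max A 1 * (a * d') := by
            refine mul_le_mul_of_nonneg_left ?_ (le_trans zero_le_one (le_max_right _ _))
            nlinarith
        _ = q * max A 1 := by rw [hq]; ring
        _ ≤ τ.im := hτ2
        _ ≤ a * τ.im := by nlinarith [τ.im_pos]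
    calc A * d' ≤ max A 1 * d' := mul_le_mul_of_nonneg_right (le_max_left _ _) hd0.le
      _ ≤ a * τ.im := h5
  have h6 := hC (aff a b d' τ) hAim
  have h7 := hB τ hτ1
  have hBnn : 0 ≤ B := by
    by_contra hB'
    rw [not_le] at hB'
    have := mul_neg_of_neg_of_pos hB' (Fermat.Agent.X0Deg.norm_q_pos 1 τ)
    linarith [norm_nonneg (discriminant τ : ℂ)]
  have h8 : ‖𝕢 1 (τ : ℂ)‖ ^ q ≤ ‖𝕢 1 ((aff a b d' τ : ℍ) : ℂ)‖ := by
    rw [Fermat.Agent.X0Deg.norm_q, Fermat.Agent.X0Deg.norm_q, ← Real.exp_nat_mul,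
      Real.exp_le_exp, him, hq]
    have h9 : a * τ.im / d' ≤ (a * d') * τ.im := by
      rw [div_le_iff₀ hd0]
      have : 0 < a * τ.im := mul_pos ha0 τ.im_pos
      nlinarith [mul_le_mul_of_nonneg_left (mul_le_mul hd1 hd1 zero_le_one hd0.le) this.le]
    have hpi := Real.pi_pos
    have h10 : (2 * Real.pi) * (a * τ.im / d') ≤ (2 * Real.pi) * ((a * d') * τ.im) :=
      mul_le_mul_of_nonneg_left h9 (by positivity)
    simp only [div_one]
    linarith
  rw [norm_mul, norm_pow, h3]
  calc ‖jFun (aff a b d' τ)‖ * ‖(discriminant τ : ℂ)‖ ^ q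
      ≤ ‖jFun (aff a b d' τ)‖ * (B * ‖𝕢 1 (τ : ℂ)‖) ^ q :=
        mul_le_mul_of_nonneg_left (pow_le_pow_left₀ (norm_nonneg _) h7 q) (norm_nonneg _)
    _ = (‖jFun (aff a b d' τ)‖ * ‖𝕢 1 (τ : ℂ)‖ ^ q) * B ^ q := by rw [mul_pow]; ring
    _ ≤ (‖jFun (aff a b d' τ)‖ * ‖𝕢 1 ((aff a b d' τ : ℍ) : ℂ)‖) * B ^ q := by
        refine mul_le_mul_of_nonneg_right (mul_le_mul_of_nonneg_left h8 (norm_nonneg _))
          (pow_nonneg hBnn q)
    _ ≤ C * B ^ q := by
        refine mul_le_mul_of_nonneg_right ?_ (pow_nonneg hBnn q)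
        rw [← norm_mul]
        exact h6

end Growth

section Scale

/-- coefficients of `∏ (Y - D f)` -/
theorem coeff_prod_scale {R X : Type*} [CommRing R] [DecidableEq X] (D : R) (f : X → R)
    (s : Finset X) : ∀ i j, i + j = s.card →
      (∏ x ∈ s, (Polynomial.X - C (f x * D))).coeff i =
        (∏ x ∈ s, (Polynomial.X - C (f x))).coeff i * D ^ j := by
  induction s using Finset.induction with
  | empty =>
    intro i j hij
    simp only [Finset.card_empty] at hij
    obtain ⟨rfl, rfl⟩ : i = 0 ∧ j = 0 := by omega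
    simp
  | insert a s ha ih =>
    intro i j hij
    rw [Finset.card_insert_of_notMem ha] at hij
    rw [Finset.prod_insert ha, Finset.prod_insert ha]
    have hdeg : ∀ (g : X → R), ∀ m, s.card < m → (∏ x ∈ s, (Polynomial.X - C (g x))).coeff m = 0 := by
      intro g m hm
      apply coeff_eq_zero_of_natDegree_lt
      refine lt_of_le_of_lt (natDegree_prod_le _ _) (lt_of_le_of_lt ?_ hm)
      have h0 : ∀ x ∈ s, (Polynomial.X - C (g x)).natDegree ≤ 1 :=
        fun x _ => natDegree_X_sub_C_le _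
      have h2 := Finset.sum_le_card_nsmul s (fun x => (Polynomial.X - C (g x)).natDegree) 1 h0
      rw [smul_eq_mul, mul_one] at h2
      exact h2
    rcases i with _ | i
    · rw [sub_mul, sub_mul, coeff_sub, coeff_sub, mul_comm Polynomial.X, coeff_mul_X_zero,
        mul_comm Polynomial.X, coeff_mul_X_zero, coeff_C_mul, coeff_C_mul, ih 0 s.card (by omega)]
      have : j = s.card + 1 := by omega
      rw [this, pow_succ]
      ring
    · rw [sub_mul, sub_mul, coeff_sub, coeff_sub, mul_comm Polynomial.X, coeff_mul_X,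
        mul_comm Polynomial.X, coeff_mul_X, coeff_C_mul, coeff_C_mul, ih i j (by omega)]
      rcases j with _ | j
      · rw [hdeg (fun x => f x * D) (i + 1) (by omega), hdeg f (i + 1) (by omega)]
        ring
      · rw [ih (i + 1) j (by omega), pow_succ]
        ring

theorem coeff_prod_mem {R X : Type*} [CommRing R] (S : Subring R) (f : X → R)
    (s : Finset X) (hf : ∀ x ∈ s, f x ∈ S) (i : ℕ) :
    (∏ x ∈ s, (Polynomial.X - C (f x))).coeff i ∈ S := by
  have h : ∏ x ∈ s, (Polynomial.X - C (f x)) ∈ Polynomial.lifts S.subtype := by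
    refine Subsemiring.prod_mem (Polynomial.lifts S.subtype) fun x hx => ?_
    refine (Polynomial.mem_lifts _).mpr ⟨Polynomial.X - C ⟨f x, hf x hx⟩, ?_⟩
    rw [Polynomial.map_sub, Polynomial.map_X, Polynomial.map_C]
    rfl
  rw [Polynomial.lifts_iff_coeff_lifts] at h
  obtain ⟨y, hy⟩ := h i
  rw [← hy]
  exact y.2

end Scale

section Complex

/-- The modular equation over `ℂ`, with degree bounds. -/
theorem exists_modPoly_complex (q : ℕ) [NeZero q] :
    ∃ (n : ℕ) (P : ℕ → ℂ[X]), P n = 1 ∧ (∀ i j, i + j = n → (P i).natDegree ≤ q * j) ∧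
      ∀ τ, ∑ i ∈ Finset.range (n + 1), (P i).eval (jFun τ) * (ModFun.jd q τ) ^ i = 0 := by
  classical
  haveI : Fintype (SL(2, ℤ) ⧸ Gamma0 q) := Fintype.ofFinite _
  have hu : IsModFun (Gamma0 q) (ModFun.jd q) := isModFun_jd (dvd_refl q)
  let X := SL(2, ℤ) ⧸ Gamma0 q
  let f : X → (ℍ → ℂ) := fun x => (conjF hu x : ℍ → ℂ)
  let n := Fintype.card X
  let E : (ℍ → ℂ)[X] := ∏ x : X, (Polynomial.X - C (f x))
  have hmd : ∀ i, MDiff (E.coeff i) := fun i =>
    coeff_prod_mem Hol f Finset.univ (fun x _ => polInf_mdiff (conjF hu x)) i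
  -- evaluation
  have hev : ∀ τ i, (E.coeff i) τ = (∏ x : X, (Polynomial.X - C (f x τ)) : ℂ[X]).coeff i := by
    intro τ i
    have h1 : E.map (Pi.evalRingHom (fun _ : ℍ => ℂ) τ) = ∏ x : X, (Polynomial.X - C (f x τ)) := by
      rw [Polynomial.map_prod]
      refine Finset.prod_congr rfl fun x _ => ?_
      rw [Polynomial.map_sub, Polynomial.map_X, Polynomial.map_C]
      rfl
    rw [← h1, Polynomial.coeff_map]
    rfl
  have hinv : ∀ i (γ : SL(2, ℤ)) τ, (E.coeff i) (γ • τ) = (E.coeff i) τ := by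
    intro i γ τ
    rw [hev, hev]
    congr 1
    rw [← Equiv.prod_comp (MulAction.toPerm γ⁻¹ : Equiv.Perm X)
      (fun x => (Polynomial.X - C (f x τ) : ℂ[X]))]
    refine Finset.prod_congr rfl fun x _ => ?_
    change _ = Polynomial.X - C (f (γ⁻¹ • x) τ)
    have h3 : f x (γ • τ) = f (γ⁻¹ • x) τ := conjF_smul hu γ x τ
    rw [h3]
  have hbd : ∀ i j, i + j = n →
      IsBoundedAtImInfty (fun τ => (E.coeff i) τ * discriminant τ ^ (q * j)) := by
    intro i j hij
    have h1 := coeff_prod_scale ((discriminant : ℍ → ℂ) ^ q) f Finset.univ i j hij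
    have h2 : (∏ x : X, (Polynomial.X - C (f x * (discriminant : ℍ → ℂ) ^ q))).coeff i ∈
        (boundedAtImInftySubalgebra ℂ).toSubring := by
      apply coeff_prod_mem
      intro x _
      induction x using QuotientGroup.induction_on with
      | H g => exact bdd_jd_smul q g⁻¹
    rw [h1, ← pow_mul] at h2
    exact h2
  choose! P hPdeg hP using fun (i : ℕ) (hi : i ≤ n) =>
    exists_polynomial_of_invariant (q * (n - i)) (E.coeff i) (hmd i) (hinv i)
      (hbd i (n - i) (by omega))
  refine ⟨n, fun i => if i = n then 1 else P i, by simp, ?_, ?_⟩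
  · intro i j hij
    by_cases hi : i = n
    · simp [hi]
    · simp only [hi, if_false]
      have := hPdeg i (by omega)
      have hj : n - i = j := by omega
      rwa [hj] at this
  · intro τ
    have hmonic : (∏ x : X, (Polynomial.X - C (f x τ)) : ℂ[X]).Monic :=
      monic_prod_of_monic _ _ fun x _ => monic_X_sub_C _
    have hnat : (∏ x : X, (Polynomial.X - C (f x τ)) : ℂ[X]).natDegree = n := by
      rw [natDegree_prod_of_monic _ _ fun x _ => monic_X_sub_C _]
      simp [n]
    have hroot : (∏ x : X, (Polynomial.X - C (f x τ)) : ℂ[X]).eval (ModFun.jd q τ) = 0 := by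
      rw [eval_prod]
      apply Finset.prod_eq_zero (Finset.mem_univ ((1 : SL(2, ℤ)) : X))
      have : f ((1 : SL(2, ℤ)) : X) = ModFun.jd q := conjF_one hu
      rw [this]
      simp
    rw [eval_eq_sum_range, hnat] at hroot
    rw [← hroot]
    refine Finset.sum_congr rfl fun i hi => ?_
    rw [Finset.mem_range] at hi
    congr 1
    rw [← hev]
    by_cases h : i = n
    · simp only [h, if_true, eval_one]
      rw [hev]
      conv_rhs => rw [← hnat]
      exact hmonic.coeff_natDegree.symm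
    · simp only [h, if_false]
      exact (hP i (by omega) τ).symm

end Complex

section Descent

variable {K : Type*} [Field K] (ι : K →+* ℂ)

/-- The modular equation over `K`, with degree bounds. -/
theorem exists_modPoly (ι : K →+* ℂ) (q : ℕ) [NeZero q] :
    ∃ (n : ℕ) (P : ℕ → K[X]), P n = 1 ∧ (∀ i j, i + j = n → (P i).natDegree ≤ q * j) ∧
      ∑ i ∈ Finset.range (n + 1), aeval (jqModC K) (P i) * (jd K q) ^ i = 0 := by
  obtain ⟨n, P, hPn, hdeg, hP⟩ := exists_modPoly_complex q
  letI : Algebra K ℂ := ι.toAlgebra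
  obtain ⟨π, hπ⟩ := (Algebra.linearMap K ℂ).exists_leftInverse_of_injective
    (LinearMap.ker_eq_bot.mpr ι.injective)
  have hπ1 : ∀ c : K, π (ι c) = c := fun c => DFunLike.congr_fun hπ c
  have hπmul : ∀ (c : K) (z : ℂ), π (z * ι c) = π z * c := by
    intro c z
    rw [mul_comm, show ι c * z = c • z from (Algebra.smul_def _ _).symm, map_smul, smul_eq_mul,
      mul_comm]
  -- the relation in `ℂ((t))`
  have hrel : ∑ i ∈ Finset.range (n + 1), aeval (jqModC ℂ) (P i) * (jd ℂ q) ^ i = 0 := by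
    have h1 : LExp 1 (fun τ => ∑ i ∈ Finset.range (n + 1), (P i).eval (jFun τ) *
        (ModFun.jd q τ) ^ i)
        (∑ i ∈ Finset.range (n + 1), aeval (jqModC ℂ) (P i) * (jd ℂ q) ^ i) := by
      have h3 := lexp_sum (h := 1) (Finset.range (n + 1))
        (f := fun i => (fun τ => (P i).eval (jFun τ)) * (ModFun.jd q) ^ i)
        (F := fun i => aeval (jqModC ℂ) (P i) * (jd ℂ q) ^ i)
        (fun i _ => (lexp_eval lexp_jFun (P i)).mul (lexp_pow (ModFun.lexp_jd q) i))
      convert! h3 using 1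
      funext τ
      simp
    have h2 : (fun τ => ∑ i ∈ Finset.range (n + 1), (P i).eval (jFun τ) *
        (ModFun.jd q τ) ^ i) = 0 := funext hP
    rw [h2] at h1
    exact h1.eq_zero one_pos
  let PK : ℕ → K[X] := fun i => ∑ m ∈ Finset.range ((P i).natDegree + 1),
    monomial m (π ((P i).coeff m))
  have key : ∀ i N, (aeval (jqModC K) (PK i) * (jd K q) ^ i).coeff N =
      π ((aeval (jqModC ℂ) (P i) * (jd ℂ q) ^ i).coeff N) := by
    intro i N
    have e1 : aeval (jqModC K) (PK i) * (jd K q) ^ i =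
        ∑ m ∈ Finset.range ((P i).natDegree + 1),
          algebraMap K (LaurentSeries K) (π ((P i).coeff m)) *
            ((jqModC K) ^ m * (jd K q) ^ i) := by
      rw [map_sum, Finset.sum_mul]
      refine Finset.sum_congr rfl fun m _ => ?_
      rw [aeval_monomial, mul_assoc]
    have e2 : aeval (jqModC ℂ) (P i) * (jd ℂ q) ^ i =
        ∑ m ∈ Finset.range ((P i).natDegree + 1),
          algebraMap ℂ (LaurentSeries ℂ) ((P i).coeff m) *
            coeffMap ι ((jqModC K) ^ m * (jd K q) ^ i) := by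
      rw [aeval_eq_sum_range, Finset.sum_mul]
      refine Finset.sum_congr rfl fun m _ => ?_
      rw [map_mul, map_pow, map_pow, coeffMap_jqModC, coeffMap_jd, Algebra.smul_def, mul_assoc]
    rw [e1, e2, HahnSeries.coeff_sum, HahnSeries.coeff_sum, map_sum]
    refine Finset.sum_congr rfl fun m _ => ?_
    rw [algebraMap_mul_coeff, algebraMap_mul_coeff, coeffMap_coeff, hπmul]
  refine ⟨n, PK, ?_, ?_, ?_⟩
  · simp only [PK, hPn, natDegree_one, zero_add, Finset.range_one, Finset.sum_singleton,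
      coeff_one_zero]
    have : π 1 = 1 := by simpa using hπ1 1
    rw [this, monomial_zero_one]
  · intro i j hij
    refine le_trans ?_ (hdeg i j hij)
    refine natDegree_sum_le_of_forall_le _ _ fun m hm => ?_
    rw [Finset.mem_range] at hm
    exact (natDegree_monomial_le _).trans (by omega)
  · ext N
    have h1 := congrArg (fun G : LaurentSeries ℂ => π (G.coeff N)) hrel
    simp only [HahnSeries.coeff_sum, map_sum, HahnSeries.coeff_zero, map_zero] at h1
    rw [HahnSeries.coeff_sum, HahnSeries.coeff_zero, ← h1]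
    exact Finset.sum_congr rfl fun i _ => key i N

end Descent

end Fermat.Agent.TwoGauss
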