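import Mathlib
import Fermat.Agent.FF.Basic
import Fermat.Agent.TwoGauss.ModPoly

/-!
# Behaviour of `j(q)`, `j(q^ℓ)` at the places of the function field
-/

set_option autoImplicit false

open AlgebraicCurve Polynomial ModularCurve

noncomputable section

namespace Fermat.Agent.TwoGauss

section Val

variable {K F : Type*} [Field K] [Field F] [Algebra K F]
variable {Γ : Type*} [LinearOrderedCommGroupWithZero Γ] (w : Valuation F Γ)
  (hw : ∀ c : K, w (algebraMap K F c) ≤ 1)

include hw in
theorem val_aeval_le_pow {x : F} (hx : 1 ≤ w x) {P : K[X]} {d : ℕ} (hd : P.natDegree ≤ d) :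
    w (aeval x P) ≤ w x ^ d := by
  rw [aeval_eq_sum_range]
  refine Valuation.map_sum_le w fun i hi => ?_
  rw [Finset.mem_range] at hi
  rw [Algebra.smul_def, map_mul, map_pow]
  calc w (algebraMap K F (P.coeff i)) * w x ^ i ≤ 1 * w x ^ i := mul_le_mul_left (hw _) _
    _ = w x ^ i := one_mul _
    _ ≤ w x ^ d := pow_le_pow_right₀ hx (by omega)

include hw in
theorem val_aeval_le_one {x : F} (hx : w x ≤ 1) (P : K[X]) : w (aeval x P) ≤ 1 := by
  rw [aeval_eq_sum_range]
  refine Valuation.map_sum_le w fun i _ => ?_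
  rw [Algebra.smul_def, map_mul, map_pow]
  exact mul_le_one' (hw _) (pow_le_one' hx i)

include hw in
/-- From the modular equation: `w y ≤ w x ^ q` if `1 < w x`. -/
theorem val_le_pow_of_rel {q n : ℕ} {P : ℕ → K[X]} (hPn : P n = 1)
    (hdeg : ∀ i j, i + j = n → (P i).natDegree ≤ q * j) {x y : F}
    (hrel : ∑ i ∈ Finset.range (n + 1), aeval x (P i) * y ^ i = 0) (hx : 1 ≤ w x) :
    w y ≤ w x ^ q := by
  by_contra hcon
  rw [not_le] at hcon
  have hy0 : w y ≠ 0 := ne_of_gt (lt_of_le_of_lt zero_le hcon)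
  rw [Finset.sum_range_succ, hPn, map_one, one_mul] at hrel
  have h1 : w (∑ i ∈ Finset.range n, aeval x (P i) * y ^ i) < w y ^ n := by
    refine Valuation.map_sum_lt w (pow_ne_zero n hy0) fun i hi => ?_
    rw [Finset.mem_range] at hi
    rw [map_mul, map_pow]
    have hj : i + (n - i) = n := by omega
    calc w (aeval x (P i)) * w y ^ i ≤ w x ^ (q * (n - i)) * w y ^ i :=
          mul_le_mul_left (val_aeval_le_pow w hw hx (hdeg i (n - i) hj)) _
      _ = (w x ^ q) ^ (n - i) * w y ^ i := by rw [pow_mul]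
      _ < w y ^ (n - i) * w y ^ i := by
          have h2 : (w x ^ q) ^ (n - i) < w y ^ (n - i) :=
            pow_lt_pow_left₀ hcon zero_le (by omega)
          exact mul_lt_mul_of_pos_right h2 (zero_lt_iff.mpr (pow_ne_zero i hy0))
      _ = w y ^ n := by rw [← pow_add]; congr 1; omega
  have h2 : ∑ i ∈ Finset.range n, aeval x (P i) * y ^ i = -(y ^ n) := eq_neg_of_add_eq_zero_left hrel
  rw [h2, Valuation.map_neg, map_pow] at h1
  exact lt_irrefl _ h1

include hw in
/-- From the modular equation: `w y ≤ 1` if `w x ≤ 1`. -/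
theorem val_le_one_of_rel {n : ℕ} {P : ℕ → K[X]} (hPn : P n = 1) {x y : F}
    (hrel : ∑ i ∈ Finset.range (n + 1), aeval x (P i) * y ^ i = 0) (hx : w x ≤ 1) :
    w y ≤ 1 := by
  by_contra hcon
  rw [not_le] at hcon
  have hy0 : w y ≠ 0 := ne_of_gt (lt_of_le_of_lt zero_le hcon)
  rw [Finset.sum_range_succ, hPn, map_one, one_mul] at hrel
  have h1 : w (∑ i ∈ Finset.range n, aeval x (P i) * y ^ i) < w y ^ n := by
    refine Valuation.map_sum_lt w (pow_ne_zero n hy0) fun i hi => ?_
    rw [Finset.mem_range] at hi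
    rw [map_mul, map_pow]
    calc w (aeval x (P i)) * w y ^ i ≤ 1 * w y ^ i :=
          mul_le_mul_left (val_aeval_le_one w hw hx _) _
      _ = w y ^ i := one_mul _
      _ < w y ^ n := pow_lt_pow_right₀ hcon hi
  have h2 : ∑ i ∈ Finset.range n, aeval x (P i) * y ^ i = -(y ^ n) := eq_neg_of_add_eq_zero_left hrel
  rw [h2, Valuation.map_neg, map_pow] at h1
  exact lt_irrefl _ h1

end Val

section PlaceLemmas

variable {K F : Type*} [Field K] [Field F] [Algebra K F] (v : Place K F)

theorem adicVal_algebraMap_le (c : K) : v.adicValuation (algebraMap K F c) ≤ 1 := by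
  have h := v.adicValuation_coe (algebraMap K v.toValuationSubring c)
  rw [v.coe_algebraMap] at h
  rw [h]
  exact v.heightOneSpectrum.intValuation_le_one _

theorem ord_neg_iff {x : F} : v.ord x < 0 ↔ 1 < v.adicValuation x := by
  rcases eq_or_ne x 0 with rfl | hx
  · simp
  · have h0 := v.adicValuation_ne_zero hx
    rw [Place.ord, neg_lt_zero, ← WithZero.log_one, WithZero.log_lt_log one_ne_zero h0]

theorem ord_le_of_val_le {x y : F} (hx : x ≠ 0) (h : v.adicValuation y ≤ v.adicValuation x)
    (hx' : v.ord x ≤ 0) : v.ord x ≤ v.ord y := by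
  rcases eq_or_ne y 0 with rfl | hy
  · simpa using hx'
  · rw [Place.ord, Place.ord, neg_le_neg_iff]
    exact (WithZero.log_le_log (v.adicValuation_ne_zero hy) (v.adicValuation_ne_zero hx)).mpr h

/-- the cuspidal condition from a pair of modular equations -/
theorem cusp_of_rel {q n : ℕ} {P : ℕ → K[X]} (hPn : P n = 1)
    (hdeg : ∀ i j, i + j = n → (P i).natDegree ≤ q * j) {x y : F}
    (hrel : ∑ i ∈ Finset.range (n + 1), aeval x (P i) * y ^ i = 0)
    (hrel' : ∑ i ∈ Finset.range (n + 1), aeval y (P i) * x ^ i = 0) (hx : v.ord x < 0) :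
    v.ord y < 0 ∧ q * v.ord x ≤ v.ord y := by
  have hx1 := (ord_neg_iff v).mp hx
  have hx0 : x ≠ 0 := by
    rintro rfl
    simp at hx
  constructor
  · rw [ord_neg_iff]
    by_contra hcon
    rw [not_lt] at hcon
    exact absurd (val_le_one_of_rel v.adicValuation (adicVal_algebraMap_le v) hPn hrel' hcon)
      (not_le.mpr hx1)
  · have h := val_le_pow_of_rel v.adicValuation (adicVal_algebraMap_le v) hPn hdeg hrel hx1.le
    rw [← map_pow] at h
    have h2 := ord_le_of_val_le v (pow_ne_zero q hx0) h (by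
      rw [← zpow_natCast, v.ord_zpow]
      exact mul_nonpos_of_nonneg_of_nonpos (by positivity) hx.le)
    rwa [← zpow_natCast, v.ord_zpow] at h2

end PlaceLemmas

end Fermat.Agent.TwoGauss
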