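import Mathlib
import Fermat.Agent.TEll.SecNorm
import Fermat.Agent.TwoGauss.AtkinLehner

/-!
# Frobenius on the function field of `X₀(m)` in characteristic `q`
-/

set_option autoImplicit false

open ModularCurve IntermediateField HahnSeries

noncomputable section

namespace Fermat.Agent.TwoGauss

section Coeff

variable {k : Type*} [Field k]

theorem coeffMap_mem_fullC (s : k →+* k) (m : ℕ) {x : LaurentSeries k}
    (hx : x ∈ modularFunctionFieldFullC k m) : coeffMap s x ∈ modularFunctionFieldFullC k m := by
  rw [modularFunctionFieldFullC] at hx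
  induction hx using IntermediateField.adjoin_induction with
  | mem y hy =>
    obtain ⟨d, hne, hd, rfl⟩ := hy
    change coeffMap s (jd k d) ∈ _
    rw [coeffMap_jd]
    exact jd_mem_fullC k m hd
  | algebraMap a =>
    rw [coeffMap_algebraMap]
    exact (modularFunctionFieldFullC k m).algebraMap_mem _
  | add y z _ _ hy hz => rw [map_add]; exact add_mem hy hz
  | inv y _ hy => rw [map_inv₀]; exact inv_mem hy
  | mul y z _ _ hy hz => rw [map_mul]; exact mul_mem hy hz

/-- action of an automorphism of the coefficients on the function field -/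
def coeffAut (s : k ≃+* k) (m : ℕ) :
    modularFunctionFieldFullC k m ≃+* modularFunctionFieldFullC k m where
  toFun x := ⟨coeffMap (s : k →+* k) x, coeffMap_mem_fullC _ m x.2⟩
  invFun x := ⟨coeffMap (s.symm : k →+* k) x, coeffMap_mem_fullC _ m x.2⟩
  left_inv x := Subtype.ext <| by
    change coeffMap (s.symm : k →+* k) (coeffMap (s : k →+* k) (x : LaurentSeries k)) = x
    rw [coeffMap_coeffMap, coeffMap_congr (g := RingHom.id k)
      (RingHom.ext fun a => s.symm_apply_apply a), coeffMap_id]
  right_inv x := Subtype.ext <| by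
    change coeffMap (s : k →+* k) (coeffMap (s.symm : k →+* k) (x : LaurentSeries k)) = x
    rw [coeffMap_coeffMap, coeffMap_congr (g := RingHom.id k)
      (RingHom.ext fun a => s.apply_symm_apply a), coeffMap_id]
  map_mul' x y := Subtype.ext (map_mul (coeffMap (s : k →+* k)) _ _)
  map_add' x y := Subtype.ext (map_add (coeffMap (s : k →+* k)) _ _)

@[simp]
theorem coe_coeffAut (s : k ≃+* k) (m : ℕ) (x : modularFunctionFieldFullC k m) :
    ((coeffAut s m x : modularFunctionFieldFullC k m) : LaurentSeries k) =
      coeffMap (s : k →+* k) x := rfl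

theorem coeffAut_algebraMap (s : k ≃+* k) (m : ℕ) (c : k) :
    coeffAut s m (algebraMap k _ c) = algebraMap k _ (s c) :=
  Subtype.ext (coeffMap_algebraMap (s : k →+* k) c)

end Coeff

section Frob

variable (k : Type*) [Field k] (q : ℕ) [Fact q.Prime] [CharP k q] (m : ℕ)

instance : NeZero q := ⟨(Fact.out : q.Prime).ne_zero⟩

theorem qExpand_jd_eq_pow (d : ℕ) [NeZero d] : qExpand k q (jd k d) = jd k d ^ q := by
  have h := Fermat.Agent.TEll.qExpand_coeffMap_frobenius q (jd k d)
  rwa [coeffMap_jd] at h

theorem qExpand_mem_fullC {x : LaurentSeries k} (hx : x ∈ modularFunctionFieldFullC k m) :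
    qExpand k q x ∈ modularFunctionFieldFullC k m := by
  have h : (modularFunctionFieldFullC k m).map (qExpandAlgHomC k q) ≤
      modularFunctionFieldFullC k m := by
    nth_rewrite 1 [modularFunctionFieldFullC]
    rw [adjoin_map, adjoin_le_iff]
    rintro _ ⟨_, ⟨d, hne, hd, rfl⟩, rfl⟩
    change qExpand k q (jd k d) ∈ _
    rw [qExpand_jd_eq_pow]
    exact pow_mem (jd_mem_fullC k m hd) q
  exact h ⟨x, hx, rfl⟩

/-- the endomorphism `f(t) ↦ f(t^q)` of the function field in characteristic `q` -/
def verMap : modularFunctionFieldFullC k m →ₐ[k] modularFunctionFieldFullC k m where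
  toFun x := ⟨qExpand k q x, qExpand_mem_fullC k q m x.2⟩
  map_one' := Subtype.ext (map_one (qExpand k q))
  map_mul' _ _ := Subtype.ext (map_mul (qExpand k q) _ _)
  map_zero' := Subtype.ext (map_zero (qExpand k q))
  map_add' _ _ := Subtype.ext (map_add (qExpand k q) _ _)
  commutes' c := Subtype.ext ((qExpandAlgHomC k q).commutes c)

@[simp]
theorem coe_verMap (x : modularFunctionFieldFullC k m) :
    ((verMap k q m x : modularFunctionFieldFullC k m) : LaurentSeries k) = qExpand k q x := rfl

variable [PerfectRing k q]

/-- the Frobenius on the coefficients -/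
def frobAut : modularFunctionFieldFullC k m ≃+* modularFunctionFieldFullC k m :=
  coeffAut (frobeniusEquiv k q) m

theorem coe_frobAut (x : modularFunctionFieldFullC k m) :
    ((frobAut k q m x : modularFunctionFieldFullC k m) : LaurentSeries k) =
      coeffMap (frobenius k q) x := rfl

theorem frobAut_algebraMap (c : k) :
    frobAut k q m (algebraMap k _ c) = algebraMap k _ (c ^ q) :=
  coeffAut_algebraMap (frobeniusEquiv k q) m c

theorem verMap_frobAut (x : modularFunctionFieldFullC k m) :
    verMap k q m (frobAut k q m x) = x ^ q := by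
  apply Subtype.ext
  rw [coe_verMap, coe_frobAut]
  exact Fermat.Agent.TEll.qExpand_coeffMap_frobenius q _

end Frob

end Fermat.Agent.TwoGauss
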