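import Mathlib
import Fermat.Agent.GaussVal.Field
import Fermat.Prelude.Def_ModularCurve_X0ModL
import Fermat.Prelude.Def_FLTPrelim_Ramification
import Fermat.Prelude.Def_EllipticCurve_FrobeniusTrace

/-!
# The Gauss ring under `f(q) ↦ f(q^d)` and under automorphisms of the constants
-/

set_option autoImplicit false

open ModularCurve IntermediateField HahnSeries
open Fermat.Agent.GaussVal

noncomputable section

namespace Fermat.Agent.TwoGauss

section QExpand

variable {K : Type*} [Field K] {A : ValuationSubring K}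

theorem redS_ne_zero_qExpand (d : ℕ) [NeZero d] {Y : LaurentSeries A} (hY : redS A Y ≠ 0) :
    redS A (qExpand A d Y) ≠ 0 := by
  rw [coeffMap_qExpand]
  intro h
  exact hY ((map_eq_zero_iff _ (qExpand_injective d)).mp h)

theorem qExpand_mem_gaussSubring (d : ℕ) [NeZero d] {y : LaurentSeries K}
    (hy : y ∈ gaussSubring A) : qExpand K d y ∈ gaussSubring A := by
  obtain ⟨Y₁, Y₂, hY, h⟩ := hy
  refine ⟨qExpand A d Y₁, qExpand A d Y₂, redS_ne_zero_qExpand d hY, ?_⟩
  rw [coeffMap_qExpand, coeffMap_qExpand, ← map_mul, h]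

theorem gaussRed_qExpand (d : ℕ) [NeZero d] (y : gaussSubring A) :
    gaussRed A ⟨qExpand K d y, qExpand_mem_gaussSubring d y.2⟩ =
      qExpand (IsLocalRing.ResidueField A) d (gaussRed A y) := by
  obtain ⟨Y₁, Y₂, hY, h⟩ := y.2
  rw [gaussRed_eq hY h, gaussRed_eq (Y₁ := qExpand A d Y₁) (Y₂ := qExpand A d Y₂)
    (redS_ne_zero_qExpand d hY)
    (by
      change qExpand K d (y : LaurentSeries K) * _ = _
      rw [coeffMap_qExpand, coeffMap_qExpand, ← map_mul, h]), map_div₀,
    coeffMap_qExpand, coeffMap_qExpand]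

end QExpand

section Coeff

variable {K : Type*} [Field K] {A : ValuationSubring K}

/-- A pair of compatible endomorphisms of `K` and of the residue field of `A`. -/
structure ResidueCompat (A : ValuationSubring K) (σ : K →+* K)
    (s : IsLocalRing.ResidueField A →+* IsLocalRing.ResidueField A) : Prop where
  mem : ∀ a ∈ A, σ a ∈ A
  residue : ∀ (a : K) (ha : a ∈ A),
    IsLocalRing.residue A ⟨σ a, mem a ha⟩ = s (IsLocalRing.residue A ⟨a, ha⟩)

namespace ResidueCompat

variable {σ : K →+* K} {s : IsLocalRing.ResidueField A →+* IsLocalRing.ResidueField A}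
variable (h : ResidueCompat A σ s)

/-- the restriction to `A` -/
def restr : A →+* A where
  toFun a := ⟨σ a, h.mem a a.2⟩
  map_one' := Subtype.ext (map_one σ)
  map_mul' _ _ := Subtype.ext (map_mul σ _ _)
  map_zero' := Subtype.ext (map_zero σ)
  map_add' _ _ := Subtype.ext (map_add σ _ _)

include h in
theorem incl_restr (Y : LaurentSeries A) : incl A (coeffMap h.restr Y) = coeffMap σ (incl A Y) := by
  rw [coeffMap_coeffMap, coeffMap_coeffMap]
  rfl

include h in
theorem redS_restr (Y : LaurentSeries A) : redS A (coeffMap h.restr Y) = coeffMap s (redS A Y) := by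
  rw [coeffMap_coeffMap, coeffMap_coeffMap]
  apply coeffMap_congr
  ext a
  exact h.residue a a.2

include h in
theorem redS_restr_ne_zero {Y : LaurentSeries A} (hY : redS A Y ≠ 0) :
    redS A (coeffMap h.restr Y) ≠ 0 := by
  rw [h.redS_restr]
  intro h0
  exact hY ((map_eq_zero_iff _ (coeffMap s).injective).mp h0)

include h in
theorem coeffMap_mem {y : LaurentSeries K} (hy : y ∈ gaussSubring A) :
    coeffMap σ y ∈ gaussSubring A := by
  obtain ⟨Y₁, Y₂, hY, hh⟩ := hy
  refine ⟨coeffMap h.restr Y₁, coeffMap h.restr Y₂, h.redS_restr_ne_zero hY, ?_⟩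
  rw [h.incl_restr, h.incl_restr, ← map_mul, hh]

include h in
theorem gaussRed_coeffMap (y : gaussSubring A) (hy : coeffMap σ y ∈ gaussSubring A) :
    gaussRed A ⟨coeffMap σ y, hy⟩ = coeffMap s (gaussRed A y) := by
  obtain ⟨Y₁, Y₂, hY, hh⟩ := y.2
  rw [gaussRed_eq hY hh, gaussRed_eq (Y₁ := coeffMap h.restr Y₁) (Y₂ := coeffMap h.restr Y₂)
    (h.redS_restr_ne_zero hY)
    (by
      change coeffMap σ (y : LaurentSeries K) * _ = _
      rw [h.incl_restr, h.incl_restr, ← map_mul, hh]), map_div₀, h.redS_restr, h.redS_restr]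

end ResidueCompat

/-- elements of the decomposition group act on the residue field -/
theorem residueCompat_of_decomposition {K₀ : Type*} [Field K₀] [Algebra K₀ K]
    {A : ValuationSubring K} (g : A.decompositionSubgroup K₀) :
    ResidueCompat A (((g : K ≃ₐ[K₀] K)) : K →+* K)
      (MulSemiringAction.toRingHom (A.decompositionSubgroup K₀) (IsLocalRing.ResidueField A) g) where
  mem a ha := (g • (⟨a, ha⟩ : A)).2
  residue a ha := IsLocalRing.ResidueField.residue_smul _ g (⟨a, ha⟩ : A)

theorem residueCompat_of_inertia {K₀ : Type*} [Field K₀] [Algebra K₀ K] {A : ValuationSubring K}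
    {σ : K ≃ₐ[K₀] K} (hσ : σ ∈ A.inertiaSubgroupIn K₀) :
    ResidueCompat A (σ : K →+* K) (RingHom.id _) := by
  obtain ⟨g, hg, rfl⟩ := hσ
  have h := residueCompat_of_decomposition g
  have h1 : MulSemiringAction.toRingHom (A.decompositionSubgroup K₀)
      (IsLocalRing.ResidueField A) g = RingHom.id _ := by
    have h2 : MulSemiringAction.toRingAut (A.decompositionSubgroup K₀)
      (IsLocalRing.ResidueField A) g = 1 := hg
    ext x
    have h3 := congrArg (fun e : RingAut (IsLocalRing.ResidueField A) => e x) h2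
    simpa using h3
  rw [h1] at h
  exact h

theorem residueCompat_of_frobenius {K₀ : Type*} [Field K₀] [Algebra K₀ K]
    {A : ValuationSubring K} {σ : K ≃ₐ[K₀] K} {q : ℕ} [Fact q.Prime]
    [CharP (IsLocalRing.ResidueField A) q] (hσ : A.IsFrobeniusAt σ q) :
    ResidueCompat A (σ : K →+* K) (frobenius (IsLocalRing.ResidueField A) q) := by
  have h := residueCompat_of_decomposition
    (⟨σ, hσ.mem_decompositionSubgroup⟩ : A.decompositionSubgroup K₀)
  have h1 : MulSemiringAction.toRingHom (A.decompositionSubgroup K₀)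
      (IsLocalRing.ResidueField A) ⟨σ, hσ.mem_decompositionSubgroup⟩ =
        frobenius (IsLocalRing.ResidueField A) q := by
    ext x
    rw [frobenius_def]
    exact hσ.smul_residue_eq x
  rw [h1] at h
  exact h

end Coeff

end Fermat.Agent.TwoGauss
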