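import Mathlib
import Fermat.Agent.GaussVal.Range

/-!
# The residue fields of the two Gauss valuations
-/

set_option autoImplicit false

open ModularCurve HahnSeries Module Polynomial
open scoped IntermediateField
open Fermat.Agent.GaussVal

noncomputable section

namespace Fermat.Agent.TwoGauss

section Rel

variable {K F : Type*} [Field K] [Field F] [Algebra K F] (A : ValuationSubring K)

/-- More elements than the degree satisfy a primitive polynomial relation. -/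
theorem exists_scaled_relation {I : Type*} [Fintype I] (y : F) [FiniteDimensional K⟮y⟯ F]
    (hn : finrank K⟮y⟯ F < Fintype.card I) (x : I → F) :
    ∃ Q : I → A[X], (∃ i, (Q i).map (IsLocalRing.residue A) ≠ 0) ∧
      ∑ i, aeval y ((Q i).map A.subtype) * x i = 0 := by
  classical
  let e := Fintype.equivFin I
  obtain ⟨P, ⟨i₁, hi₁⟩, hrel⟩ := exists_poly_relation (K := K) y hn (fun i => x (e.symm i))
  obtain ⟨c, Q, hc0, hQ, i₂, hi₂⟩ := exists_scale_poly A P ⟨i₁, fun h => hi₁ (by rw [h, map_zero])⟩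
  refine ⟨fun i => Q (e i), ⟨e.symm i₂, by simpa using hi₂⟩, ?_⟩
  have h1 : algebraMap K F c * ∑ i, aeval y ((Q i).map A.subtype) * x (e.symm i) = 0 := by
    rw [← hrel, Finset.mul_sum]
    apply Finset.sum_congr rfl
    intro i _
    rw [hQ i, map_mul, aeval_C, mul_assoc]
  have h2 := (mul_eq_zero.mp h1).resolve_left
      ((map_ne_zero_iff _ (algebraMap K F).injective).mpr hc0)
  rw [← h2]
  exact Fintype.sum_equiv e _ _ (fun i => by simp)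

end Rel

section Expand

variable {k : Type*} [Field k]

theorem eq_zero_of_sum_expand {q : ℕ} (hq : 0 < q) (R : Fin q → k[X])
    (h : ∑ a : Fin q, expand k q (R a) * X ^ (a : ℕ) = 0) : ∀ a, R a = 0 := by
  intro a
  ext n
  have h1 := congrArg (fun P : k[X] => P.coeff (q * n + a)) h
  simp only [finsetSum_coeff, Polynomial.coeff_zero] at h1
  rw [Finset.sum_eq_single a] at h1
  · rw [coeff_mul_X_pow, mul_comm, coeff_expand_mul hq] at h1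
    simpa using h1
  · intro b _ hb
    rw [coeff_mul_X_pow']
    split_ifs with hle
    · rw [coeff_expand hq, if_neg]
      intro hd
      apply hb
      apply Fin.ext
      obtain ⟨c, hc⟩ := hd
      have ha := a.2
      have hb2 := b.2
      have e1 : q * n + (a : ℕ) = q * c + b := by omega
      have e2 := congrArg (fun t => t % q) e1
      simpa [Nat.add_mod, Nat.mod_eq_of_lt ha, Nat.mod_eq_of_lt hb2] using e2.symm
    · rfl
  · simp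

end Expand

section Range

variable {K : Type*} [Field K] {A : ValuationSubring K} {ℓ : ℕ}
variable [CharZero K] [Algebra.IsAlgebraic ℚ K]
variable {F : Type*} [Field F] [Algebra K F]

/-- A one-sided approximation: any `x ∈ O₁` has the same reduction as an element of
`O₁ ∩ O₂`. -/
theorem exists_mem_inter {hℓ : ℓ.Prime} {hA : A.LiesOverPrime ℓ}
    {ι₁ ι₂ : F →ₐ[K] LaurentSeries K} {h₁ : ∀ x, ι₁ x ∈ intField K} {h₂ : ∀ x, ι₂ x ∈ intField K}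
    (e : F) (he₁ : e ∈ gaussVal hℓ hA ι₁ h₁) (he₂ : e ∈ gaussVal hℓ hA ι₂ h₂)
    (he₁' : gaussRho hℓ hA ι₁ h₁ ⟨e, he₁⟩ = 0) (he₂' : gaussRho hℓ hA ι₂ h₂ ⟨e, he₂⟩ ≠ 0)
    (x : F) (hx : x ∈ gaussVal hℓ hA ι₁ h₁) :
    ∃ (y : F) (hy : y ∈ gaussVal hℓ hA ι₁ h₁), y ∈ gaussVal hℓ hA ι₂ h₂ ∧
      gaussRho hℓ hA ι₁ h₁ ⟨y, hy⟩ = gaussRho hℓ hA ι₁ h₁ ⟨x, hx⟩ := by
  by_cases hx2 : x ∈ gaussVal hℓ hA ι₂ h₂
  · exact ⟨x, hx, hx2, rfl⟩
  have hx0 : x ≠ 0 := fun h => hx2 (h ▸ zero_mem _)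
  -- `u = 1 + e x²` is a unit of `O₁` reducing to `1`
  have hu : (1 : F) + e * x ^ 2 ∈ gaussVal hℓ hA ι₁ h₁ :=
    add_mem (one_mem _) (mul_mem he₁ (pow_mem hx 2))
  have hu1 : gaussRho hℓ hA ι₁ h₁ ⟨_, hu⟩ = 1 := by
    have : (⟨_, hu⟩ : gaussVal hℓ hA ι₁ h₁) = 1 + ⟨e, he₁⟩ * ⟨x, hx⟩ ^ 2 := rfl
    rw [this, map_add, map_mul, he₁', zero_mul, add_zero, map_one]
  obtain ⟨hui, hui'⟩ := gaussRho_inv (x := (⟨_, hu⟩ : gaussVal hℓ hA ι₁ h₁))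
    (by rw [hu1]; exact one_ne_zero)
  rw [hu1, inv_one] at hui'
  refine ⟨x * (1 + e * x ^ 2)⁻¹, mul_mem hx hui, ?_, ?_⟩
  · -- in `O₂`
    have hxi : x⁻¹ ∈ gaussVal hℓ hA ι₂ h₂ := ((gaussVal hℓ hA ι₂ h₂).mem_or_inv_mem x).resolve_left hx2
    have hxi0 : gaussRho hℓ hA ι₂ h₂ ⟨x⁻¹, hxi⟩ = 0 := by
      rw [gaussRho_eq_zero_iff]
      by_contra hcon
      rw [mem_nonunits_iff_inv_notMem _ (inv_ne_zero hx0), inv_inv] at hcon
      exact hx2 hcon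
    -- `x / (1 + e x²) = x⁻¹ / (x⁻² + e)`
    have hden : (x⁻¹) ^ 2 + e ∈ gaussVal hℓ hA ι₂ h₂ := add_mem (pow_mem hxi 2) he₂
    have hden' : gaussRho hℓ hA ι₂ h₂ ⟨_, hden⟩ = gaussRho hℓ hA ι₂ h₂ ⟨e, he₂⟩ := by
      have : (⟨_, hden⟩ : gaussVal hℓ hA ι₂ h₂) = ⟨x⁻¹, hxi⟩ ^ 2 + ⟨e, he₂⟩ := rfl
      rw [this, map_add, map_pow, hxi0, zero_pow two_ne_zero, zero_add]
    obtain ⟨hdi, -⟩ := gaussRho_inv (x := (⟨_, hden⟩ : gaussVal hℓ hA ι₂ h₂))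
      (by rw [hden']; exact he₂')
    have heq : x * (1 + e * x ^ 2)⁻¹ = x⁻¹ * ((x⁻¹) ^ 2 + e)⁻¹ := by
      have h3 : (1 : F) + e * x ^ 2 = x ^ 2 * ((x⁻¹) ^ 2 + e) := by
        field_simp
      rw [h3, mul_inv]
      field_simp
    rw [heq]
    exact mul_mem hxi hdi
  · have : (⟨x * (1 + e * x ^ 2)⁻¹, mul_mem hx hui⟩ : gaussVal hℓ hA ι₁ h₁) =
      ⟨x, hx⟩ * ⟨_, hui⟩ := rfl
    rw [this, map_mul, hui', mul_one]

/-- reduction of a sum of products -/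
theorem gaussRho_sum_mul {hℓ : ℓ.Prime} {hA : A.LiesOverPrime ℓ}
    {ι : F →ₐ[K] LaurentSeries K} {hF : ∀ x, ι x ∈ intField K} {I : Type*} [Fintype I]
    (y : F) (hy : y ∈ gaussVal hℓ hA ι hF) (Q : I → A[X]) (x : I → F)
    (hx : ∀ i, x i ∈ gaussVal hℓ hA ι hF)
    (hrel : ∑ i, aeval y ((Q i).map A.subtype) * x i = 0) :
    ∑ i, aeval (gaussRho hℓ hA ι hF ⟨y, hy⟩) ((Q i).map (IsLocalRing.residue A)) *
      gaussRho hℓ hA ι hF ⟨x i, hx i⟩ = 0 := by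
  choose g₁ g₂ using fun i => gaussRho_aeval (hF := hF) (⟨y, hy⟩ : gaussVal hℓ hA ι hF) (Q i)
  have h3 : (∑ i, (⟨_, g₁ i⟩ : gaussVal hℓ hA ι hF) * ⟨x i, hx i⟩) = 0 := by
    apply Subtype.ext
    refine Eq.trans ?_ hrel
    push_cast
    rfl
  have h4 := congrArg (gaussRho hℓ hA ι hF) h3
  rw [map_sum, map_zero] at h4
  rw [← h4]
  apply Finset.sum_congr rfl
  intro i _
  rw [map_mul, g₂ i]

/-- **The residue field of the first Gauss valuation.** -/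
theorem range_two {hℓ : ℓ.Prime} {hA : A.LiesOverPrime ℓ}
    {ι₁ ι₂ : F →ₐ[K] LaurentSeries K} {h₁ : ∀ x, ι₁ x ∈ intField K} {h₂ : ∀ x, ι₂ x ∈ intField K}
    {F' : Type*} [Field F'] [Algebra (IsLocalRing.ResidueField A) F']
    (ι' : F' →ₐ[IsLocalRing.ResidueField A] LaurentSeries (IsLocalRing.ResidueField A))
    (q : ℕ) (hq : 0 < q)
    (y : F) [FiniteDimensional K⟮y⟯ F] (hy₁ : y ∈ gaussVal hℓ hA ι₁ h₁)
    (hy₂ : y ∈ gaussVal hℓ hA ι₂ h₂) (y' : F')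
    (hyy₁ : gaussRho hℓ hA ι₁ h₁ ⟨y, hy₁⟩ = ι' y')
    (hyy₂ : gaussRho hℓ hA ι₂ h₂ ⟨y, hy₂⟩ = ι' y' ^ q)
    (htr : Transcendental (IsLocalRing.ResidueField A) y')
    (hdeg : finrank K⟮y⟯ F ≤ (q + 1) * finrank (IsLocalRing.ResidueField A)⟮y'⟯ F')
    (e₁ e₂ : F)
    (he₁₁ : e₁ ∈ gaussVal hℓ hA ι₁ h₁) (he₁₂ : e₁ ∈ gaussVal hℓ hA ι₂ h₂)
    (he₂₁ : e₂ ∈ gaussVal hℓ hA ι₁ h₁) (he₂₂ : e₂ ∈ gaussVal hℓ hA ι₂ h₂)
    (hr₁₁ : gaussRho hℓ hA ι₁ h₁ ⟨e₁, he₁₁⟩ ≠ 0) (hr₁₂ : gaussRho hℓ hA ι₂ h₂ ⟨e₁, he₁₂⟩ = 0)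
    (hr₂₁ : gaussRho hℓ hA ι₁ h₁ ⟨e₂, he₂₁⟩ = 0) (hr₂₂ : gaussRho hℓ hA ι₂ h₂ ⟨e₂, he₂₂⟩ ≠ 0)
    (hl₁ : ∀ z : F', ∃ (x : F) (hx : x ∈ gaussVal hℓ hA ι₁ h₁), x ∈ gaussVal hℓ hA ι₂ h₂ ∧
      gaussRho hℓ hA ι₁ h₁ ⟨x, hx⟩ = ι' z)
    (hl₂ : ∀ z : F', ∃ (x : F) (hx : x ∈ gaussVal hℓ hA ι₂ h₂), x ∈ gaussVal hℓ hA ι₁ h₁ ∧
      gaussRho hℓ hA ι₂ h₂ ⟨x, hx⟩ = ι' z)
    (x : gaussVal hℓ hA ι₁ h₁) : ∃ z : F', ι' z = gaussRho hℓ hA ι₁ h₁ x := by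
  classical
  have hι' : Function.Injective ι' := ι'.injective
  by_contra hcon
  push Not at hcon
  -- replace `x` by an element of `O₁ ∩ O₂`
  obtain ⟨x', hx'₁, hx'₂, hx'⟩ := exists_mem_inter e₂ he₂₁ he₂₂ hr₂₁ hr₂₂ (x : F) x.2
  have hcon' : ∀ z, ι' z ≠ gaussRho hℓ hA ι₁ h₁ ⟨x', hx'₁⟩ := by
    intro z; rw [hx']; exact hcon z
  set k := IsLocalRing.ResidueField A with hk
  have hpos : 0 < finrank K⟮y⟯ F := finrank_pos
  set n := finrank k⟮y'⟯ F' with hn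
  have hnpos : 0 < n := by
    rcases Nat.eq_zero_or_pos n with h | h
    · rw [h, mul_zero] at hdeg; omega
    · exact h
  have hfd : FiniteDimensional k⟮y'⟯ F' := FiniteDimensional.of_finrank_pos (hn ▸ hnpos)
  let b := Module.finBasis k⟮y'⟯ F'
  -- independence over `k[y']`
  have hb : ∀ P : Fin n → k[X], ∑ i, aeval y' (P i) * b i = 0 → ∀ i, P i = 0 := by
    intro P hP i
    have h0 := b.linearIndependent
    rw [Fintype.linearIndependent_iff] at h0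
    have h1 := h0 (fun i => ⟨aeval y' (P i),
      IntermediateField.algebra_adjoin_le_adjoin _ _ (Polynomial.aeval_mem_adjoin_singleton k y')⟩)
      (by
        rw [← hP]
        exact Finset.sum_congr rfl fun i _ => by rw [IntermediateField.smul_def, smul_eq_mul]) i
    have h2 : aeval y' (P i) = 0 := congrArg Subtype.val h1
    exact (transcendental_iff.mp htr) _ h2
  choose u₁ hu₁₁ hu₁₂ hu₁ using fun i => hl₁ (b i)
  choose u₂ hu₂₂ hu₂₁ hu₂ using fun p : Fin n × Fin q => hl₂ (y' ^ (p.2 : ℕ) * b p.1)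
  -- the family
  let fam : (Fin n ⊕ Unit) ⊕ (Fin n × Fin q) → F :=
    Sum.elim (Sum.elim (fun i => e₁ * u₁ i) (fun _ => e₁ * x')) (fun p => e₂ * u₂ p)
  have hX₁ : ∀ i, fam i ∈ gaussVal hℓ hA ι₁ h₁ := by
    rintro ((i | i) | p)
    · exact mul_mem he₁₁ (hu₁₁ i)
    · exact mul_mem he₁₁ hx'₁
    · exact mul_mem he₂₁ (hu₂₁ p)
  have hX₂ : ∀ i, fam i ∈ gaussVal hℓ hA ι₂ h₂ := by
    rintro ((i | i) | p)
    · exact mul_mem he₁₂ (hu₁₂ i)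
    · exact mul_mem he₁₂ hx'₂
    · exact mul_mem he₂₂ (hu₂₂ p)
  obtain ⟨Q, ⟨i₀, hi₀⟩, hrel⟩ := exists_scaled_relation A (y := y) (I := (Fin n ⊕ Unit) ⊕ (Fin n × Fin q))
    (by
      simp only [Fintype.card_sum, Fintype.card_fin, Fintype.card_unit, Fintype.card_prod]
      calc finrank K⟮y⟯ F ≤ (q + 1) * n := hdeg
        _ < n + 1 + n * q := by ring_nf; omega) fam
  -- first reduction
  have hR₁ := gaussRho_sum_mul y hy₁ Q fam hX₁ hrel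
  have hR₂ := gaussRho_sum_mul y hy₂ Q fam hX₂ hrel
  rw [Fintype.sum_sum_type, Fintype.sum_sum_type] at hR₁ hR₂
  have a1 : ∀ i, gaussRho hℓ hA ι₁ h₁ ⟨fam (Sum.inl (Sum.inl i)), hX₁ _⟩ =
      gaussRho hℓ hA ι₁ h₁ ⟨e₁, he₁₁⟩ * ι' (b i) := by
    intro i
    rw [← hu₁ i, ← map_mul]; rfl
  have a2 : gaussRho hℓ hA ι₁ h₁ ⟨fam (Sum.inl (Sum.inr ())), hX₁ _⟩ =
      gaussRho hℓ hA ι₁ h₁ ⟨e₁, he₁₁⟩ * gaussRho hℓ hA ι₁ h₁ ⟨x', hx'₁⟩ := by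
    rw [← map_mul]; rfl
  have a3 : ∀ p, gaussRho hℓ hA ι₁ h₁ ⟨fam (Sum.inr p), hX₁ _⟩ = 0 := by
    intro p
    have : (⟨fam (Sum.inr p), hX₁ _⟩ : gaussVal hℓ hA ι₁ h₁) = ⟨e₂, he₂₁⟩ * ⟨u₂ p, hu₂₁ p⟩ := rfl
    rw [this, map_mul, hr₂₁, zero_mul]
  have c1 : ∀ i, gaussRho hℓ hA ι₂ h₂ ⟨fam (Sum.inl (Sum.inl i)), hX₂ _⟩ = 0 := by
    intro i
    have : (⟨fam (Sum.inl (Sum.inl i)), hX₂ _⟩ : gaussVal hℓ hA ι₂ h₂) =
      ⟨e₁, he₁₂⟩ * ⟨u₁ i, hu₁₂ i⟩ := rfl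
    rw [this, map_mul, hr₁₂, zero_mul]
  have c2 : gaussRho hℓ hA ι₂ h₂ ⟨fam (Sum.inl (Sum.inr ())), hX₂ _⟩ = 0 := by
    have : (⟨fam (Sum.inl (Sum.inr ())), hX₂ _⟩ : gaussVal hℓ hA ι₂ h₂) =
      ⟨e₁, he₁₂⟩ * ⟨x', hx'₂⟩ := rfl
    rw [this, map_mul, hr₁₂, zero_mul]
  have c3 : ∀ p : Fin n × Fin q, gaussRho hℓ hA ι₂ h₂ ⟨fam (Sum.inr p), hX₂ _⟩ =
      gaussRho hℓ hA ι₂ h₂ ⟨e₂, he₂₂⟩ * ι' (y' ^ (p.2 : ℕ) * b p.1) := by
    intro p
    rw [← hu₂ p, ← map_mul]; rfl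
  simp only [Finset.univ_unique, Finset.sum_singleton, PUnit.default_eq_unit, a1, a2, a3,
    mul_zero, Finset.sum_const_zero, add_zero] at hR₁
  simp only [Finset.univ_unique, Finset.sum_singleton, PUnit.default_eq_unit, c1, c2, c3,
    mul_zero, Finset.sum_const_zero, add_zero, zero_add] at hR₂
  have hR₁' : ∑ i, aeval (ι' y') ((Q (Sum.inl (Sum.inl i))).map (IsLocalRing.residue A)) *
      ι' (b i) + aeval (ι' y') ((Q (Sum.inl (Sum.inr ()))).map (IsLocalRing.residue A)) *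
        gaussRho hℓ hA ι₁ h₁ ⟨x', hx'₁⟩ = 0 := by
    have h5 : gaussRho hℓ hA ι₁ h₁ ⟨e₁, he₁₁⟩ * (∑ i, aeval (ι' y')
        ((Q (Sum.inl (Sum.inl i))).map (IsLocalRing.residue A)) *
      ι' (b i) + aeval (ι' y') ((Q (Sum.inl (Sum.inr ()))).map (IsLocalRing.residue A)) *
        gaussRho hℓ hA ι₁ h₁ ⟨x', hx'₁⟩) = 0 := by
      rw [← hR₁, mul_add, Finset.mul_sum]
      rw [hyy₁]
      congr 1
      · exact Finset.sum_congr rfl fun i _ => by ring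
      · ring
    exact (mul_eq_zero.mp h5).resolve_left hr₁₁
  have hR₂' : ∑ p : Fin n × Fin q, aeval (ι' y' ^ q)
      ((Q (Sum.inr p)).map (IsLocalRing.residue A)) * ι' (y' ^ (p.2 : ℕ) * b p.1) = 0 := by
    have h5 : gaussRho hℓ hA ι₂ h₂ ⟨e₂, he₂₂⟩ * (∑ p : Fin n × Fin q, aeval (ι' y' ^ q)
      ((Q (Sum.inr p)).map (IsLocalRing.residue A)) * ι' (y' ^ (p.2 : ℕ) * b p.1)) = 0 := by
      rw [← hR₂, Finset.mul_sum, hyy₂]
      exact Finset.sum_congr rfl fun i _ => by ring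
    exact (mul_eq_zero.mp h5).resolve_left hr₂₂
  -- the coefficient of `x'` vanishes
  have hQx : (Q (Sum.inl (Sum.inr ()))).map (IsLocalRing.residue A) = 0 := by
    by_contra hne
    have h6 : aeval y' ((Q (Sum.inl (Sum.inr ()))).map (IsLocalRing.residue A)) ≠ 0 :=
      fun h => hne ((transcendental_iff.mp htr) _ h)
    apply hcon' (-(∑ i, aeval y' ((Q (Sum.inl (Sum.inl i))).map (IsLocalRing.residue A)) * b i) /
      aeval y' ((Q (Sum.inl (Sum.inr ()))).map (IsLocalRing.residue A)))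
    have h7 : ι' (aeval y' ((Q (Sum.inl (Sum.inr ()))).map (IsLocalRing.residue A))) ≠ 0 :=
      (map_ne_zero_iff _ hι').mpr h6
    rw [map_div₀, div_eq_iff h7, map_neg, map_sum]
    simp only [map_mul, ← Polynomial.aeval_algHom_apply]
    linear_combination -hR₁'
  rw [hQx, map_zero, zero_mul, add_zero] at hR₁'
  have hQ1 : ∀ i, (Q (Sum.inl (Sum.inl i))).map (IsLocalRing.residue A) = 0 := by
    apply hb
    apply hι'
    rw [map_sum, map_zero, ← hR₁']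
    exact Finset.sum_congr rfl fun i _ => by rw [map_mul, ← Polynomial.aeval_algHom_apply]
  -- second reduction
  have hQ2 : ∀ p, (Q (Sum.inr p)).map (IsLocalRing.residue A) = 0 := by
    have h8 : ∀ i, ∑ a : Fin q, expand k q ((Q (Sum.inr (i, a))).map (IsLocalRing.residue A)) *
        X ^ (a : ℕ) = 0 := by
      apply hb
      apply hι'
      rw [map_sum, map_zero, ← hR₂', Fintype.sum_prod_type]
      apply Finset.sum_congr rfl
      intro i _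
      rw [map_mul, map_sum, map_sum, Finset.sum_mul]
      apply Finset.sum_congr rfl
      intro a _
      rw [map_mul, expand_aeval, map_pow, aeval_X, map_mul, map_mul, map_pow,
        ← Polynomial.aeval_algHom_apply, map_pow]
      ring
    rintro ⟨i, a⟩
    exact eq_zero_of_sum_expand hq _ (h8 i) a
  rcases i₀ with (i | i) | p
  · exact hi₀ (hQ1 i)
  · exact hi₀ hQx
  · exact hi₀ (hQ2 p)

end Range

end Fermat.Agent.TwoGauss
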