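import Mathlib
import Fermat.Agent.GaussVal.Modular
import Fermat.Agent.TEll.Inputs
import Fermat.Agent.TEll.Gauss
import Fermat.Agent.P1Count.Index
import Fermat.Agent.TwoGauss.QExp
import Fermat.Agent.TwoGauss.Range
import Fermat.Agent.TwoGauss.Frob
import Fermat.Agent.TwoGauss.Cusp

/-!
# The two Gauss valuations of the function field of `X₀(m q)` above `q`
-/

set_option autoImplicit false

open ModularCurve HahnSeries Module
open scoped IntermediateField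
open Fermat.Agent.GaussVal
open scoped Fermat.Agent.GaussVal

noncomputable section

namespace Fermat.Agent.TwoGauss

/-- the algebraic numbers -/
local notation "𝕂" => AlgebraicClosure ℚ

instance instIsAlgebraicRat : @Algebra.IsAlgebraic ℚ (AlgebraicClosure ℚ) _ _ DivisionRing.toRatAlgebra :=
  AlgebraicClosure.isAlgebraic ℚ

section Emb

variable {A : ValuationSubring (AlgebraicClosure ℚ)} {q m : ℕ} [NeZero m] [NeZero q]
  (hq : q.Prime) (hm : ¬ q ∣ m) (hA : A.LiesOverPrime q)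

/-- the expansion at `∞` -/
def emb₁ (m q : ℕ) : modularFunctionFieldBar (m * q) →ₐ[𝕂] LaurentSeries 𝕂 :=
  (modularFunctionFieldBar (m * q)).val

/-- the expansion at `w_q ∞` -/
def emb₂ : modularFunctionFieldBar (m * q) →ₐ[𝕂] LaurentSeries 𝕂 :=
  (emb₁ m q).comp (wq hq hm : modularFunctionFieldBar (m * q) →ₐ[𝕂] modularFunctionFieldBar (m * q))

theorem emb₂_apply (x : modularFunctionFieldBar (m * q)) :
    emb₂ hq hm x = emb₁ m q (wq hq hm x) := rfl

omit [NeZero m] [NeZero q] in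
theorem emb₁_mem (x : modularFunctionFieldBar (m * q)) : emb₁ m q x ∈ intField 𝕂 :=
  val_mem_intField (laurentBaseChange_full 𝕂 (m * q)) x

theorem emb₂_mem (x : modularFunctionFieldBar (m * q)) : emb₂ hq hm x ∈ intField 𝕂 :=
  emb₁_mem (wq hq hm x)

/-- the first Gauss valuation ring -/
def O₁ : ValuationSubring (modularFunctionFieldBar (m * q)) :=
  gaussVal hq hA (emb₁ m q) emb₁_mem

/-- the second Gauss valuation ring -/
def O₂ : ValuationSubring (modularFunctionFieldBar (m * q)) :=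
  gaussVal hq hA (emb₂ hq hm) (emb₂_mem hq hm)

/-- the first reduction, as a Laurent series -/
def r₁ : O₁ (m := m) hq hA →+* LaurentSeries (IsLocalRing.ResidueField A) :=
  gaussRho hq hA (emb₁ m q) emb₁_mem

/-- the second reduction, as a Laurent series -/
def r₂ : O₂ hq hm hA →+* LaurentSeries (IsLocalRing.ResidueField A) :=
  gaussRho hq hA (emb₂ hq hm) (emb₂_mem hq hm)

theorem mem_O₂_iff (x : modularFunctionFieldBar (m * q)) :
    x ∈ O₂ hq hm hA ↔ wq hq hm x ∈ O₁ hq hA := Iff.rfl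

theorem r₂_apply (x : modularFunctionFieldBar (m * q)) (hx : x ∈ O₂ hq hm hA) :
    r₂ hq hm hA ⟨x, hx⟩ = r₁ hq hA ⟨wq hq hm x, hx⟩ := rfl

theorem mem_O₁_wq_iff (x : modularFunctionFieldBar (m * q)) :
    wq hq hm x ∈ O₂ hq hm hA ↔ x ∈ O₁ hq hA := by
  rw [mem_O₂_iff, wq_wq]

/-! ### The elements `j_d` -/

theorem jdB_mem_O₁ (d : Dv (m * q)) : jdB 𝕂 (m * q) d ∈ O₁ hq hA :=
  (gaussRho_jd (hℓ := hq) (hA := hA) (ι := emb₁ m q) (hF := emb₁_mem)
    (x := jdB 𝕂 (m * q) d) (d := d.1) rfl).choose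

theorem r₁_jdB (d : Dv (m * q)) (h : jdB 𝕂 (m * q) d ∈ O₁ hq hA) :
    r₁ hq hA ⟨_, h⟩ = jd (IsLocalRing.ResidueField A) d.1 :=
  (gaussRho_jd (hℓ := hq) (hA := hA) (ι := emb₁ m q) (hF := emb₁_mem)
    (x := jdB 𝕂 (m * q) d) (d := d.1) rfl).choose_spec

theorem jdB_mem_O₂ (d : Dv (m * q)) : jdB 𝕂 (m * q) d ∈ O₂ hq hm hA := by
  rw [mem_O₂_iff, wq_jdB]
  exact jdB_mem_O₁ hq hA _

theorem r₂_jdB (d : Dv (m * q)) (h : jdB 𝕂 (m * q) d ∈ O₂ hq hm hA) :
    r₂ hq hm hA ⟨_, h⟩ = jd (IsLocalRing.ResidueField A) (swapD q m hq hm d).1 := by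
  rw [r₂_apply]
  have e : (⟨wq hq hm (jdB 𝕂 (m * q) d), h⟩ : O₁ hq hA) =
      ⟨jdB 𝕂 (m * q) (swapD q m hq hm d), jdB_mem_O₁ hq hA _⟩ := Subtype.ext (wq_jdB hq hm d)
  rw [e, r₁_jdB]

/-! ### The degeneracy maps -/

/-- the inclusion of the function field of level `m` -/
abbrev alphaB (m q : ℕ) [NeZero m] [NeZero q] :
    modularFunctionFieldBar m →ₐ[𝕂] modularFunctionFieldBar (m * q) :=
  heckeAlphaBar 𝕂 m q

/-- `f(τ) ↦ f(qτ)` -/
abbrev betaB (m q : ℕ) [NeZero m] [NeZero q] :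
    modularFunctionFieldBar m →ₐ[𝕂] modularFunctionFieldBar (m * q) :=
  heckeBetaBar 𝕂 m q

theorem alpha_mem₁ {f : modularFunctionFieldBar m} (hf : (f : LaurentSeries 𝕂) ∈ gaussSubring A) :
    alphaB m q f ∈ O₁ hq hA := by
  change ((alphaB m q f : modularFunctionFieldBar (m * q)) : LaurentSeries 𝕂) ∈ gaussSubring A
  rw [coe_heckeAlphaBar]
  exact hf

theorem r₁_alpha {f : modularFunctionFieldBar m} (hf : (f : LaurentSeries 𝕂) ∈ gaussSubring A)
    (h : alphaB m q f ∈ O₁ hq hA) :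
    r₁ hq hA ⟨alphaB m q f, h⟩ = gaussRed A ⟨f, hf⟩ := by
  change gaussRed A ⟨_, _⟩ = _
  congr 1

theorem beta_mem₁ {f : modularFunctionFieldBar m} (hf : (f : LaurentSeries 𝕂) ∈ gaussSubring A) :
    betaB m q f ∈ O₁ hq hA := by
  change ((betaB m q f : modularFunctionFieldBar (m * q)) : LaurentSeries 𝕂) ∈ gaussSubring A
  rw [coe_heckeBetaBar]
  exact qExpand_mem_gaussSubring q hf

theorem r₁_beta {f : modularFunctionFieldBar m} (hf : (f : LaurentSeries 𝕂) ∈ gaussSubring A)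
    (h : betaB m q f ∈ O₁ hq hA) :
    r₁ hq hA ⟨betaB m q f, h⟩ =
      qExpand (IsLocalRing.ResidueField A) q (gaussRed A ⟨f, hf⟩) := by
  have e := gaussRed_qExpand q (⟨(f : LaurentSeries 𝕂), hf⟩ : gaussSubring A)
  exact Eq.trans rfl e

theorem alpha_mem₂ {f : modularFunctionFieldBar m} (hf : (f : LaurentSeries 𝕂) ∈ gaussSubring A) :
    alphaB m q f ∈ O₂ hq hm hA := by
  rw [mem_O₂_iff, wq_alpha]
  exact beta_mem₁ hq hA hf

theorem r₂_alpha {f : modularFunctionFieldBar m} (hf : (f : LaurentSeries 𝕂) ∈ gaussSubring A)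
    (h : alphaB m q f ∈ O₂ hq hm hA) :
    r₂ hq hm hA ⟨alphaB m q f, h⟩ =
      qExpand (IsLocalRing.ResidueField A) q (gaussRed A ⟨f, hf⟩) := by
  have e : (⟨wq hq hm (alphaB m q f), h⟩ : O₁ hq hA) = ⟨betaB m q f, beta_mem₁ hq hA hf⟩ :=
    Subtype.ext (wq_alpha hq hm f)
  rw [r₂_apply, e, r₁_beta hq hA hf]

theorem beta_mem₂ {f : modularFunctionFieldBar m} (hf : (f : LaurentSeries 𝕂) ∈ gaussSubring A) :
    betaB m q f ∈ O₂ hq hm hA := by
  rw [mem_O₂_iff, wq_beta]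
  exact alpha_mem₁ hq hA hf

theorem r₂_beta {f : modularFunctionFieldBar m} (hf : (f : LaurentSeries 𝕂) ∈ gaussSubring A)
    (h : betaB m q f ∈ O₂ hq hm hA) :
    r₂ hq hm hA ⟨betaB m q f, h⟩ = gaussRed A ⟨f, hf⟩ := by
  have e : (⟨wq hq hm (betaB m q f), h⟩ : O₁ hq hA) = ⟨alphaB m q f, alpha_mem₁ hq hA hf⟩ :=
    Subtype.ext (wq_beta hq hm f)
  rw [r₂_apply, e, r₁_alpha hq hA hf]

end Emb

end Fermat.Agent.TwoGauss
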