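import Mathlib
import Fermat.Agent.TwoGauss.Setup
import Fermat.Agent.EC.RedFrob

/-!
# The residue fields of the two Gauss valuations are the function field of `X₀(m)`
-/

set_option autoImplicit false
set_option linter.unusedSectionVars false

open ModularCurve HahnSeries Module
open scoped IntermediateField
open Fermat.Agent.GaussVal
open scoped Fermat.Agent.GaussVal

noncomputable section

namespace Fermat.Agent.TwoGauss

/-- the algebraic numbers -/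
local notation "𝕂" => AlgebraicClosure ℚ

section Degree

variable {q m : ℕ} (hq : q.Prime) (hm : ¬ q ∣ m)

include hq in
theorem dedekindPsi_prime : dedekindPsi q = q + 1 := by
  have h := Fermat.Agent.P1Count.dedekindPsi_primePow q 0 hq
  simpa using h

include hq hm in
theorem dedekindPsi_level : dedekindPsi (m * q) = (q + 1) * dedekindPsi m := by
  rw [Fermat.Agent.P1Count.dedekindPsi_mul m q (((Nat.Prime.coprime_iff_not_dvd hq).mpr hm).symm),
    dedekindPsi_prime hq, mul_comm]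

/-- the divisor `1` -/
abbrev oneDv (N : ℕ) : Dv N := ⟨1, one_dvd N⟩

/-- the divisor `q` of `m q` -/
abbrev qDv (m q : ℕ) : Dv (m * q) := ⟨q, Dvd.intro_left m rfl⟩

theorem swapD_oneDv : swapD q m hq hm (oneDv (m * q)) = qDv m q := by
  rw [oneDv, swapD_of_dvd_m hq hm (one_dvd m) _ (mul_dvd_level (one_dvd m))]
  exact Subtype.ext (mul_one q)

theorem swapD_qDv : swapD q m hq hm (qDv m q) = oneDv (m * q) := by
  rw [← swapD_oneDv hq hm, swapD_swapD]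

theorem jEl_eq (N : ℕ) [NeZero N] (hE : modularFunctionFieldBar N = modularFunctionFieldFullC 𝕂 N) :
    jEl 𝕂 (modularFunctionFieldBar N) N hE = jdB 𝕂 N (oneDv N) :=
  Subtype.ext (qExpand_one_apply _).symm

theorem X0jF_eq (N : ℕ) [NeZero N] : Fermat.Agent.X0Emb.jF N = jdB 𝕂 N (oneDv N) :=
  Subtype.ext ((Fermat.Agent.X0Emb.coe_jF N).trans (qExpand_one_apply _).symm)

theorem finrank_jdB (N : ℕ) [NeZero N] :
    finrank 𝕂⟮jdB 𝕂 N (oneDv N)⟯ (modularFunctionFieldBar N) = dedekindPsi N := by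
  rw [← X0jF_eq]
  exact Fermat.Agent.TEll.finrank_jF0 N

theorem finite_jdB (N : ℕ) [NeZero N] :
    FiniteDimensional 𝕂⟮jdB 𝕂 N (oneDv N)⟯ (modularFunctionFieldBar N) := by
  rw [← X0jF_eq]
  exact Fermat.Agent.TEll.finiteDimensional_jF0 N

end Degree

section Res

variable {A : ValuationSubring (AlgebraicClosure ℚ)} {q m : ℕ} [NeZero m]
  [Fact q.Prime] [CharP (IsLocalRing.ResidueField A) q]
  (hq : q.Prime) (hm : ¬ q ∣ m) (hA : A.LiesOverPrime q)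

/-- the residue field -/
local notation "κ" => IsLocalRing.ResidueField A

omit [NeZero m] in
theorem jd_q_eq : jd κ q = jd κ 1 ^ q := by
  rw [← qExpand_jd_eq_pow κ q 1]
  change qExpand κ q (jqModC κ) = qExpand κ q (qExpand κ 1 (jqModC κ))
  rw [qExpand_one_apply]

omit [NeZero m] in
theorem jd_one_eq : jd κ 1 = jqModC κ := qExpand_one_apply _

theorem transcendental_jd_one : Transcendental κ (jd κ 1) := by
  rw [jd_one_eq]; exact transcendental_jqModC κ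

include hq in
theorem jd_sub_pow_ne_zero : jd κ 1 - (jd κ 1 ^ q) ^ q ≠ 0 := by
  intro h
  have h1 := (transcendental_iff.mp (transcendental_jd_one (A := A)))
    (Polynomial.X - (Polynomial.X ^ q) ^ q) (by simpa using h)
  have h2 := congrArg (fun P : Polynomial κ => P.coeff 1) h1
  simp only [← pow_mul, Polynomial.coeff_sub, Polynomial.coeff_X_one, Polynomial.coeff_X_pow,
    Polynomial.coeff_zero] at h2
  have h3 : (1 : ℕ) ≠ q * q := by
    have := hq.one_lt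
    nlinarith
  rw [if_neg h3, sub_zero] at h2
  exact one_ne_zero h2

/-- an element which is a unit at the first and topologically nilpotent at the second component -/
def e₁ (m q : ℕ) [NeZero m] [NeZero q] : modularFunctionFieldBar (m * q) :=
  jdB 𝕂 (m * q) (oneDv (m * q)) - jdB 𝕂 (m * q) (qDv m q) ^ q

/-- an element which is a unit at the second and topologically nilpotent at the first component -/
def e₂ (m q : ℕ) [NeZero m] [NeZero q] : modularFunctionFieldBar (m * q) :=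
  jdB 𝕂 (m * q) (qDv m q) - jdB 𝕂 (m * q) (oneDv (m * q)) ^ q

theorem e₁_mem₁ : e₁ m q ∈ O₁ hq hA :=
  sub_mem (jdB_mem_O₁ hq hA _) (pow_mem (jdB_mem_O₁ hq hA _) q)

theorem e₂_mem₁ : e₂ m q ∈ O₁ hq hA :=
  sub_mem (jdB_mem_O₁ hq hA _) (pow_mem (jdB_mem_O₁ hq hA _) q)

theorem e₁_mem₂ : e₁ m q ∈ O₂ hq hm hA :=
  sub_mem (jdB_mem_O₂ hq hm hA _) (pow_mem (jdB_mem_O₂ hq hm hA _) q)

theorem e₂_mem₂ : e₂ m q ∈ O₂ hq hm hA :=
  sub_mem (jdB_mem_O₂ hq hm hA _) (pow_mem (jdB_mem_O₂ hq hm hA _) q)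

theorem r₁_e₁ : r₁ hq hA ⟨e₁ m q, e₁_mem₁ hq hA⟩ = jd κ 1 - (jd κ 1 ^ q) ^ q := by
  have h : (⟨e₁ m q, e₁_mem₁ hq hA⟩ : O₁ hq hA) =
    ⟨_, jdB_mem_O₁ hq hA (oneDv (m * q))⟩ - ⟨_, jdB_mem_O₁ hq hA (qDv m q)⟩ ^ q := rfl
  rw [h, map_sub, map_pow, r₁_jdB, r₁_jdB, ← jd_q_eq]

theorem r₁_e₂ : r₁ hq hA ⟨e₂ m q, e₂_mem₁ hq hA⟩ = 0 := by
  have h : (⟨e₂ m q, e₂_mem₁ hq hA⟩ : O₁ hq hA) =
    ⟨_, jdB_mem_O₁ hq hA (qDv m q)⟩ - ⟨_, jdB_mem_O₁ hq hA (oneDv (m * q))⟩ ^ q := rfl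
  rw [h, map_sub, map_pow, r₁_jdB, r₁_jdB, ← jd_q_eq, sub_self]

omit [NeZero m] [Fact q.Prime] [CharP (IsLocalRing.ResidueField A) q] in
theorem jd_congr [NeZero m] [NeZero q] (R : Type*) [CommRing R] {d d' : Dv (m * q)} (h : d = d') :
    jd R d.1 = jd R d'.1 := by
  subst h; rfl

theorem r₂_jdB_one (h : jdB 𝕂 (m * q) (oneDv (m * q)) ∈ O₂ hq hm hA) :
    r₂ hq hm hA ⟨_, h⟩ = jd κ q := by
  rw [r₂_jdB]
  exact jd_congr κ (swapD_oneDv hq hm)

theorem r₂_jdB_q (h : jdB 𝕂 (m * q) (qDv m q) ∈ O₂ hq hm hA) :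
    r₂ hq hm hA ⟨_, h⟩ = jd κ 1 := by
  rw [r₂_jdB]
  exact jd_congr κ (swapD_qDv hq hm)

theorem r₂_e₁ : r₂ hq hm hA ⟨e₁ m q, e₁_mem₂ hq hm hA⟩ = 0 := by
  have h : (⟨e₁ m q, e₁_mem₂ hq hm hA⟩ : O₂ hq hm hA) =
    ⟨_, jdB_mem_O₂ hq hm hA (oneDv (m * q))⟩ - ⟨_, jdB_mem_O₂ hq hm hA (qDv m q)⟩ ^ q := rfl
  rw [h, map_sub, map_pow, r₂_jdB_one, r₂_jdB_q, ← jd_q_eq, sub_self]

theorem r₂_e₂ : r₂ hq hm hA ⟨e₂ m q, e₂_mem₂ hq hm hA⟩ = jd κ 1 - (jd κ 1 ^ q) ^ q := by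
  have h : (⟨e₂ m q, e₂_mem₂ hq hm hA⟩ : O₂ hq hm hA) =
    ⟨_, jdB_mem_O₂ hq hm hA (qDv m q)⟩ - ⟨_, jdB_mem_O₂ hq hm hA (oneDv (m * q))⟩ ^ q := rfl
  rw [h, map_sub, map_pow, r₂_jdB_one, r₂_jdB_q, ← jd_q_eq]

/-- lifting at the first component -/
theorem exists_lift₁ (z : modularFunctionFieldFullC κ m) :
    ∃ (x : modularFunctionFieldBar (m * q)) (hx : x ∈ O₁ hq hA), x ∈ O₂ hq hm hA ∧
      r₁ hq hA ⟨x, hx⟩ = (modularFunctionFieldFullC κ m).val z := by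
  obtain ⟨x, hx⟩ := exists_gaussRho_full (hℓ := hq) (hA := hA) (laurentBaseChange_full 𝕂 m) z.1 z.2
  refine ⟨alphaB m q x, alpha_mem₁ hq hA x.2, alpha_mem₂ hq hm hA x.2, ?_⟩
  rw [r₁_alpha hq hA x.2]
  exact hx

/-- lifting at the second component -/
theorem exists_lift₂ (z : modularFunctionFieldFullC κ m) :
    ∃ (x : modularFunctionFieldBar (m * q)) (hx : x ∈ O₂ hq hm hA), x ∈ O₁ hq hA ∧
      r₂ hq hm hA ⟨x, hx⟩ = (modularFunctionFieldFullC κ m).val z := by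
  obtain ⟨x, hx⟩ := exists_gaussRho_full (hℓ := hq) (hA := hA) (laurentBaseChange_full 𝕂 m) z.1 z.2
  refine ⟨betaB m q x, beta_mem₂ hq hm hA x.2, beta_mem₁ hq hA x.2, ?_⟩
  rw [r₂_beta hq hm hA x.2]
  exact hx

include hm in
/-- **The residue field of the first Gauss valuation** is the function field of `X₀(m)`. -/
theorem range_r₁
    (H3 : finrank κ⟮jEl κ (modularFunctionFieldFullC κ m) m rfl⟯ (modularFunctionFieldFullC κ m) =
      dedekindPsi m) (x : O₁ (m := m) hq hA) :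
    ∃ z : modularFunctionFieldFullC κ m,
      (modularFunctionFieldFullC κ m).val z = r₁ hq hA x := by
  have := finite_jdB (m * q)
  refine range_two (h₁ := emb₁_mem) (h₂ := emb₂_mem hq hm) (hℓ := hq) (hA := hA)
    (modularFunctionFieldFullC κ m).val q hq.pos
    (jdB 𝕂 (m * q) (oneDv (m * q))) (jdB_mem_O₁ hq hA _) (jdB_mem_O₂ hq hm hA _)
    (jEl κ (modularFunctionFieldFullC κ m) m rfl) ?_ ?_ (transcendental_jEl _ _ _ _) ?_
    (e₁ m q) (e₂ m q) (e₁_mem₁ hq hA) (e₁_mem₂ hq hm hA) (e₂_mem₁ hq hA) (e₂_mem₂ hq hm hA)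
    ?_ ?_ ?_ ?_ (exists_lift₁ hq hm hA) (exists_lift₂ hq hm hA) x
  · exact (r₁_jdB hq hA _ _).trans jd_one_eq
  · refine (r₂_jdB_one hq hm hA _).trans ?_
    rw [jd_q_eq, jd_one_eq]
    rfl
  · rw [finrank_jdB, dedekindPsi_level hq hm, H3]
  · exact (r₁_e₁ hq hA).trans_ne (jd_sub_pow_ne_zero hq)
  · exact r₂_e₁ hq hm hA
  · exact r₁_e₂ hq hA
  · exact (r₂_e₂ hq hm hA).trans_ne (jd_sub_pow_ne_zero hq)

/-- **The residue field of the second Gauss valuation** is the function field of `X₀(m)`. -/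
theorem range_r₂
    (H3 : finrank κ⟮jEl κ (modularFunctionFieldFullC κ m) m rfl⟯ (modularFunctionFieldFullC κ m) =
      dedekindPsi m) (x : O₂ hq hm hA) :
    ∃ z : modularFunctionFieldFullC κ m,
      (modularFunctionFieldFullC κ m).val z = r₂ hq hm hA x := by
  obtain ⟨z, hz⟩ := range_r₁ hq hm hA H3 ⟨wq hq hm x, (mem_O₂_iff hq hm hA _).mp x.2⟩
  exact ⟨z, hz⟩

end Res

end Fermat.Agent.TwoGauss
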