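import Mathlib
import Fermat.Agent.TwoGauss.Residue
import Fermat.Agent.TwoComp.Defs
import Fermat.Agent.TwoGauss.Good
import Fermat.Agent.S18.Main

/-!
# The two-component reduction data of `X₀(m q)` at `q`
-/

set_option autoImplicit false
set_option linter.unusedSectionVars false

open ModularCurve HahnSeries Module AlgebraicCurve
open scoped IntermediateField
open Fermat.Agent.GaussVal Fermat.Agent.FF Fermat.Agent.RR
open scoped Fermat.Agent.GaussVal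

noncomputable section

namespace Fermat.Agent.TwoGauss

/-- the algebraic numbers -/
local notation "𝕂" => AlgebraicClosure ℚ

section Inst

variable {A : ValuationSubring (AlgebraicClosure ℚ)} {q m : ℕ} [NeZero m]
  [Fact q.Prime] [CharP (IsLocalRing.ResidueField A) q]
  (hq : q.Prime) (hm : ¬ q ∣ m) (hA : A.LiesOverPrime q)
  (H3 : S18aux.DegThm (IsLocalRing.ResidueField A) m)

/-- the residue field -/
local notation "κ" => IsLocalRing.ResidueField A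

/-- the reduction at the first component -/
def ρ₁ : O₁ (m := m) hq hA →+* modularFunctionFieldFullC κ m :=
  rhoTo hq hA (emb₁ m q) emb₁_mem (modularFunctionFieldFullC κ m).val (range_r₁ hq hm hA H3)

/-- the reduction at the second component -/
def ρ₂ : O₂ hq hm hA →+* modularFunctionFieldFullC κ m :=
  rhoTo hq hA (emb₂ hq hm) (emb₂_mem hq hm) (modularFunctionFieldFullC κ m).val
    (range_r₂ hq hm hA H3)

theorem coe_ρ₁ (x : O₁ (m := m) hq hA) :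
    ((ρ₁ hq hm hA H3 x : modularFunctionFieldFullC κ m) : LaurentSeries κ) = r₁ hq hA x :=
  emb_rhoTo (hF := emb₁_mem) (ι' := (modularFunctionFieldFullC κ m).val)
    (hr := range_r₁ hq hm hA H3) x

theorem coe_ρ₂ (x : O₂ hq hm hA) :
    ((ρ₂ hq hm hA H3 x : modularFunctionFieldFullC κ m) : LaurentSeries κ) = r₂ hq hm hA x :=
  emb_rhoTo (hF := emb₂_mem hq hm) (ι' := (modularFunctionFieldFullC κ m).val)
    (hr := range_r₂ hq hm hA H3) x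

theorem ρ₁_eq_zero_iff (x : O₁ (m := m) hq hA) :
    ρ₁ hq hm hA H3 x = 0 ↔ (x : modularFunctionFieldBar (m * q)) ∈ (O₁ hq hA).nonunits := by
  refine Iff.trans ?_ (gaussRho_eq_zero_iff (hF := emb₁_mem) (x := x))
  constructor
  · intro h
    have := coe_ρ₁ hq hm hA H3 x
    rw [h] at this
    exact this.symm
  · intro h
    apply Subtype.ext
    rw [coe_ρ₁]
    exact h

theorem ρ₂_eq_zero_iff (x : O₂ hq hm hA) :
    ρ₂ hq hm hA H3 x = 0 ↔ (x : modularFunctionFieldBar (m * q)) ∈ (O₂ hq hm hA).nonunits := by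
  refine Iff.trans ?_ (gaussRho_eq_zero_iff (hF := emb₂_mem hq hm) (x := x))
  constructor
  · intro h
    have := coe_ρ₂ hq hm hA H3 x
    rw [h] at this
    exact this.symm
  · intro h
    apply Subtype.ext
    rw [coe_ρ₂]
    exact h

theorem algebraMap_mem_O₁_iff (a : 𝕂) :
    algebraMap 𝕂 (modularFunctionFieldBar (m * q)) a ∈ O₁ hq hA ↔ a ∈ A := by
  rw [O₁, mem_gaussVal, AlgHom.commutes]
  exact algebraMap_mem_gaussSubring_iff

theorem algebraMap_mem_O₂_iff (a : 𝕂) :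
    algebraMap 𝕂 (modularFunctionFieldBar (m * q)) a ∈ O₂ hq hm hA ↔ a ∈ A := by
  rw [O₂, mem_gaussVal, AlgHom.commutes]
  exact algebraMap_mem_gaussSubring_iff

theorem ρ₁_algebraMap (a : A) (h : algebraMap 𝕂 (modularFunctionFieldBar (m * q)) a ∈ O₁ hq hA) :
    ρ₁ hq hm hA H3 ⟨_, h⟩ = algebraMap κ _ (IsLocalRing.residue A a) := by
  apply Subtype.ext
  rw [coe_ρ₁]
  exact gaussRho_algebraMap a h

theorem ρ₂_algebraMap (a : A)
    (h : algebraMap 𝕂 (modularFunctionFieldBar (m * q)) a ∈ O₂ hq hm hA) :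
    ρ₂ hq hm hA H3 ⟨_, h⟩ = algebraMap κ _ (IsLocalRing.residue A a) := by
  apply Subtype.ext
  rw [coe_ρ₂]
  exact gaussRho_algebraMap a h

/-! ### Level `m` -/

include H3 in
theorem degEq : S18aux.DegEq A m := by
  have e : finrank 𝕂⟮jEl 𝕂 (modularFunctionFieldBar m) m (S18aux.bar_eq m)⟯
      (modularFunctionFieldBar m) = dedekindPsi m := by
    rw [jEl_eq]
    exact finrank_jdB m
  exact ⟨by rw [e]; exact S18aux.dedekindPsi_pos (NeZero.ne m), by rw [e]; exact H3.symm⟩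

/-- the reduction data at level `m` -/
abbrev Gm : Deuring.GaussData 𝕂 (modularFunctionFieldBar m) κ (modularFunctionFieldFullC κ m) :=
  S18aux.modG hq hA (degEq (m := m) H3)

theorem mem_Gm_O {x : modularFunctionFieldBar m} :
    x ∈ (Gm hq hA H3).O ↔ (x : LaurentSeries 𝕂) ∈ gaussSubring A := Iff.rfl

theorem coe_Gm_ρ (x : modularFunctionFieldBar m) (hx : x ∈ (Gm hq hA H3).O) :
    ((Gm hq hA H3).ρ ⟨x, hx⟩ : LaurentSeries κ) = gaussRed A ⟨(x : LaurentSeries 𝕂), hx⟩ :=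
  S18aux.coe_modG_ρ hq hA ⟨x, hx⟩

theorem ρ₁_α (f : modularFunctionFieldBar m) (hf : f ∈ (Gm hq hA H3).O)
    (h : alphaB m q f ∈ O₁ hq hA) :
    ρ₁ hq hm hA H3 ⟨alphaB m q f, h⟩ = (Gm hq hA H3).ρ ⟨f, hf⟩ := by
  apply Subtype.ext
  rw [coe_ρ₁, coe_Gm_ρ hq hA H3 f hf, r₁_alpha hq hA hf]

theorem ρ₂_α (f : modularFunctionFieldBar m) (hf : f ∈ (Gm hq hA H3).O)
    (h : alphaB m q f ∈ O₂ hq hm hA) :
    ρ₂ hq hm hA H3 ⟨alphaB m q f, h⟩ = verMap κ q m ((Gm hq hA H3).ρ ⟨f, hf⟩) := by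
  apply Subtype.ext
  rw [coe_ρ₂, coe_verMap, coe_Gm_ρ hq hA H3 f hf, r₂_alpha hq hm hA hf]

theorem ρ₁_β (f : modularFunctionFieldBar m) (hf : f ∈ (Gm hq hA H3).O)
    (h : betaB m q f ∈ O₁ hq hA) :
    ρ₁ hq hm hA H3 ⟨betaB m q f, h⟩ = verMap κ q m ((Gm hq hA H3).ρ ⟨f, hf⟩) := by
  apply Subtype.ext
  rw [coe_ρ₁, coe_verMap, coe_Gm_ρ hq hA H3 f hf, r₁_beta hq hA hf]

theorem ρ₂_β (f : modularFunctionFieldBar m) (hf : f ∈ (Gm hq hA H3).O)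
    (h : betaB m q f ∈ O₂ hq hm hA) :
    ρ₂ hq hm hA H3 ⟨betaB m q f, h⟩ = (Gm hq hA H3).ρ ⟨f, hf⟩ := by
  apply Subtype.ext
  rw [coe_ρ₂, coe_Gm_ρ hq hA H3 f hf, r₂_beta hq hm hA hf]

/-! ### Joint surjectivity -/

theorem exists_ρ₁_lift (z : modularFunctionFieldFullC κ m) :
    ∃ (x : modularFunctionFieldBar (m * q)) (h₁ : x ∈ O₁ hq hA), x ∈ O₂ hq hm hA ∧
      ρ₁ hq hm hA H3 ⟨x, h₁⟩ = z := by
  obtain ⟨x, h₁, h₂, h⟩ := exists_lift₁ hq hm hA z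
  exact ⟨x, h₁, h₂, Subtype.ext ((coe_ρ₁ hq hm hA H3 _).trans h)⟩

theorem exists_ρ₂_lift (z : modularFunctionFieldFullC κ m) :
    ∃ (x : modularFunctionFieldBar (m * q)) (h₂ : x ∈ O₂ hq hm hA), x ∈ O₁ hq hA ∧
      ρ₂ hq hm hA H3 ⟨x, h₂⟩ = z := by
  obtain ⟨x, h₁, h₂, h⟩ := exists_lift₂ hq hm hA z
  exact ⟨x, h₁, h₂, Subtype.ext ((coe_ρ₂ hq hm hA H3 _).trans h)⟩

theorem ρ₁_e₁_ne_zero : ρ₁ hq hm hA H3 ⟨e₁ m q, e₁_mem₁ hq hA⟩ ≠ 0 := by
  intro h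
  have h1 := coe_ρ₁ hq hm hA H3 ⟨e₁ m q, e₁_mem₁ hq hA⟩
  rw [h, r₁_e₁] at h1
  exact jd_sub_pow_ne_zero hq h1.symm

theorem ρ₁_e₂ : ρ₁ hq hm hA H3 ⟨e₂ m q, e₂_mem₁ hq hA⟩ = 0 := by
  apply Subtype.ext
  rw [coe_ρ₁, r₁_e₂]
  rfl

theorem ρ₂_e₁ : ρ₂ hq hm hA H3 ⟨e₁ m q, e₁_mem₂ hq hm hA⟩ = 0 := by
  apply Subtype.ext
  rw [coe_ρ₂, r₂_e₁]
  rfl

theorem ρ₂_e₂_ne_zero : ρ₂ hq hm hA H3 ⟨e₂ m q, e₂_mem₂ hq hm hA⟩ ≠ 0 := by
  intro h
  have h1 := coe_ρ₂ hq hm hA H3 ⟨e₂ m q, e₂_mem₂ hq hm hA⟩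
  rw [h, r₂_e₂] at h1
  exact jd_sub_pow_ne_zero hq h1.symm

theorem surj (a b : modularFunctionFieldFullC κ m) :
    ∃ (f : modularFunctionFieldBar (m * q)) (h₁ : f ∈ O₁ hq hA) (h₂ : f ∈ O₂ hq hm hA),
      ρ₁ hq hm hA H3 ⟨f, h₁⟩ = a ∧ ρ₂ hq hm hA H3 ⟨f, h₂⟩ = b := by
  obtain ⟨x, hx₁, hx₂, hx⟩ := exists_ρ₁_lift hq hm hA H3
    (a / ρ₁ hq hm hA H3 ⟨e₁ m q, e₁_mem₁ hq hA⟩)
  obtain ⟨y, hy₂, hy₁, hy⟩ := exists_ρ₂_lift hq hm hA H3
    (b / ρ₂ hq hm hA H3 ⟨e₂ m q, e₂_mem₂ hq hm hA⟩)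
  refine ⟨e₁ m q * x + e₂ m q * y,
    add_mem (mul_mem (e₁_mem₁ hq hA) hx₁) (mul_mem (e₂_mem₁ hq hA) hy₁),
    add_mem (mul_mem (e₁_mem₂ hq hm hA) hx₂) (mul_mem (e₂_mem₂ hq hm hA) hy₂), ?_, ?_⟩
  · have h : (⟨e₁ m q * x + e₂ m q * y,
        add_mem (mul_mem (e₁_mem₁ hq hA) hx₁) (mul_mem (e₂_mem₁ hq hA) hy₁)⟩ : O₁ hq hA) =
        ⟨e₁ m q, e₁_mem₁ hq hA⟩ * ⟨x, hx₁⟩ + ⟨e₂ m q, e₂_mem₁ hq hA⟩ * ⟨y, hy₁⟩ := rfl
    rw [h, map_add, map_mul, map_mul, ρ₁_e₂, zero_mul, add_zero, hx]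
    exact mul_div_cancel₀ _ (ρ₁_e₁_ne_zero hq hm hA H3)
  · have h : (⟨e₁ m q * x + e₂ m q * y,
        add_mem (mul_mem (e₁_mem₂ hq hm hA) hx₂) (mul_mem (e₂_mem₂ hq hm hA) hy₂)⟩ :
          O₂ hq hm hA) =
        ⟨e₁ m q, e₁_mem₂ hq hm hA⟩ * ⟨x, hx₂⟩ + ⟨e₂ m q, e₂_mem₂ hq hm hA⟩ * ⟨y, hy₂⟩ := rfl
    rw [h, map_add, map_mul, map_mul, ρ₂_e₁, zero_mul, zero_add, hy]
    exact mul_div_cancel₀ _ (ρ₂_e₂_ne_zero hq hm hA H3)

/-! ### The `j`-function -/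

/-- the `j`-function of level `m` -/
abbrev jm (m : ℕ) [NeZero m] : modularFunctionFieldBar m := jdB 𝕂 m (oneDv m)

theorem jm_mem : jm m ∈ (Gm hq hA H3).O := by
  obtain ⟨h, -⟩ := gaussRho_jd (hℓ := hq) (hA := hA) (ι := (modularFunctionFieldBar m).val)
    (hF := val_mem_intField (laurentBaseChange_full 𝕂 m)) (x := jm m) (d := 1) rfl
  exact h

theorem ρ_jm : (Gm hq hA H3).ρ ⟨jm m, jm_mem hq hA H3⟩ = jEl κ _ m rfl := by
  apply Subtype.ext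
  rw [coe_Gm_ρ hq hA H3 (jm m) (jm_mem hq hA H3)]
  obtain ⟨h, h'⟩ := gaussRho_jd (hℓ := hq) (hA := hA) (ι := (modularFunctionFieldBar m).val)
    (hF := val_mem_intField (laurentBaseChange_full 𝕂 m)) (x := jm m) (d := 1) rfl
  refine Eq.trans ?_ (h'.trans (qExpand_one_apply _))
  rfl

theorem transcendental_ρ_jm : Transcendental κ ((Gm hq hA H3).ρ ⟨jm m, jm_mem hq hA H3⟩) := by
  rw [ρ_jm]
  exact transcendental_jEl _ _ _ _

theorem verMap_ρ_jm : verMap κ q m ((Gm hq hA H3).ρ ⟨jm m, jm_mem hq hA H3⟩) =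
    (Gm hq hA H3).ρ ⟨jm m, jm_mem hq hA H3⟩ ^ q := by
  rw [ρ_jm]
  apply Subtype.ext
  rw [coe_verMap]
  change qExpand κ q (jqModC κ) = jqModC κ ^ q
  rw [← jd_one_eq]
  exact qExpand_jd_eq_pow κ q 1

theorem finrank_jm' : finrank κ⟮(Gm hq hA H3).ρ ⟨jm m, jm_mem hq hA H3⟩⟯
    (modularFunctionFieldFullC κ m) = dedekindPsi m := by
  rw [ρ_jm]
  exact H3

theorem alpha_jm : alphaB m q (jm m) = jdB 𝕂 (m * q) (oneDv (m * q)) :=
  Subtype.ext (coe_heckeAlphaBar (L := 𝕂) m q _)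

theorem beta_jm : betaB m q (jm m) = jdB 𝕂 (m * q) (qDv m q) := by
  apply Subtype.ext
  rw [coe_heckeBetaBar]
  change qExpand 𝕂 q (qExpand 𝕂 1 (jqModC 𝕂)) = qExpand 𝕂 q (jqModC 𝕂)
  rw [qExpand_one_apply]

include hq hm in
theorem finrank_alpha_jm : finrank 𝕂⟮alphaB m q (jm m)⟯ (modularFunctionFieldBar (m * q)) =
    (q + 1) * dedekindPsi m := by
  rw [alpha_jm, finrank_jdB, dedekindPsi_level hq hm]

theorem finrank_adjoin_equiv {K F : Type*} [Field K] [Field F] [Algebra K F] (w : F ≃ₐ[K] F)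
    (x : F) : finrank K⟮w x⟯ F = finrank K⟮x⟯ F := by
  have h : (K⟮x⟯).map (w : F →ₐ[K] F) = K⟮w x⟯ := by
    rw [IntermediateField.adjoin_map, Set.image_singleton]
    rfl
  rw [← h]
  refine (Algebra.finrank_eq_of_equiv_equiv
    (IntermediateField.intermediateFieldMap w K⟮x⟯).toRingEquiv w.toRingEquiv ?_).symm
  ext y
  rfl

include hq hm in
theorem finrank_beta_jm : finrank 𝕂⟮betaB m q (jm m)⟯ (modularFunctionFieldBar (m * q)) =
    (q + 1) * dedekindPsi m := by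
  rw [← wq_alpha hq hm, finrank_adjoin_equiv, finrank_alpha_jm hq hm]

/-! ### The cusps -/

theorem exists_rel (m q : ℕ) [NeZero m] [NeZero q] :
    ∃ (n : ℕ) (P : ℕ → Polynomial 𝕂), P n = 1 ∧
      (∀ i j, i + j = n → (P i).natDegree ≤ q * j) ∧
      ∑ i ∈ Finset.range (n + 1), Polynomial.aeval (jdB 𝕂 (m * q) (oneDv (m * q))) (P i) *
        jdB 𝕂 (m * q) (qDv m q) ^ i = 0 := by
  obtain ⟨n, P, h1, h2, h3⟩ := exists_modPoly iotaBar q
  refine ⟨n, P, h1, h2, (show Function.Injective (modularFunctionFieldBar (m * q)).val from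
    (modularFunctionFieldBar (m * q)).val.injective) ?_⟩
  rw [map_sum, map_zero, ← h3]
  refine Finset.sum_congr rfl fun i _ => ?_
  rw [map_mul, map_pow, ← Polynomial.aeval_algHom_apply]
  have e : (modularFunctionFieldBar (m * q)).val (jdB 𝕂 (m * q) (oneDv (m * q))) = jqModC 𝕂 :=
    qExpand_one_apply _
  rw [e]
  rfl

include hq hm in
theorem cusp (v : Place 𝕂 (modularFunctionFieldBar (m * q))) :
    (v.ord (alphaB m q (jm m)) < 0 → v.ord (betaB m q (jm m)) < 0 ∧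
      q * v.ord (alphaB m q (jm m)) ≤ v.ord (betaB m q (jm m))) ∧
    (v.ord (betaB m q (jm m)) < 0 → v.ord (alphaB m q (jm m)) < 0 ∧
      q * v.ord (betaB m q (jm m)) ≤ v.ord (alphaB m q (jm m))) := by
  obtain ⟨n, P, h1, h2, h3⟩ := exists_rel m q
  have h4 := congrArg (wq hq hm) h3
  rw [map_sum, map_zero] at h4
  have h5 : ∑ i ∈ Finset.range (n + 1), Polynomial.aeval (jdB 𝕂 (m * q) (qDv m q)) (P i) *
      jdB 𝕂 (m * q) (oneDv (m * q)) ^ i = 0 := by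
    rw [← h4]
    refine Finset.sum_congr rfl fun i _ => ?_
    rw [map_mul, map_pow, ← Polynomial.aeval_algHom_apply, wq_jdB, wq_jdB, swapD_oneDv,
      swapD_qDv]
  rw [alpha_jm, beta_jm]
  exact ⟨cusp_of_rel v h1 h2 h3 h5, cusp_of_rel v h1 h2 h5 h3⟩

/-! ### The data -/

variable [IsAlgClosed (IsLocalRing.ResidueField A)] [PerfectRing (IsLocalRing.ResidueField A) q]

/-- the isomorphism of the function field of level `m` -/
theorem isFF_m : IsFF 𝕂 (modularFunctionFieldBar m) := by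
  have := finite_jdB m
  exact IsFF.of_finite (x := jdB 𝕂 m (oneDv m)) (by
    rw [← jEl_eq m (S18aux.bar_eq m)]
    exact transcendental_jEl _ _ _ _)

include H3 in
theorem isFF_m' : IsFF κ (modularFunctionFieldFullC κ m) := (degEq (m := m) H3).isFF'

theorem exists_good_jm
    (H2 : genusFF 𝕂 (modularFunctionFieldBar m) ≤ genusFF κ (modularFunctionFieldFullC κ m)) :
    ∃ c₀ : ℕ, ∀ c : ℕ, c₀ ≤ c →
    ∀ b : modularFunctionFieldFullC κ m, (∀ v : Place κ (modularFunctionFieldFullC κ m),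
      v.adicValuation b ≤
        WithZero.exp (c * max (-v.ord ((Gm hq hA H3).ρ ⟨jm m, jm_mem hq hA H3⟩)) 0)) →
    ∃ (f : modularFunctionFieldBar m) (hf : f ∈ (Gm hq hA H3).O),
      (∀ v : Place 𝕂 (modularFunctionFieldBar m), v.adicValuation f ≤
        WithZero.exp (c * max (-v.ord (jm m)) 0)) ∧ (Gm hq hA H3).ρ ⟨f, hf⟩ = b := by
  have := isFF_m (m := m)
  have := isFF_m' (m := m) H3
  refine exists_good H2 (jm_mem hq hA H3) (transcendental_ρ_jm hq hA H3) ?_ ?_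
  · rw [finrank_jm', finrank_jdB]
  · rw [finrank_jdB]
    exact S18aux.dedekindPsi_pos (NeZero.ne m)

/-- **The two-component reduction data of `X₀(m q)` at a prime above `q ∤ m`.** -/
def mkData
    (H2 : genusFF 𝕂 (modularFunctionFieldBar m) ≤ genusFF κ (modularFunctionFieldFullC κ m)) :
    TwoComp.Data 𝕂 (modularFunctionFieldBar m) (modularFunctionFieldBar (m * q)) κ
      (modularFunctionFieldFullC κ m) q where
  G := Gm hq hA H3
  O₁ := O₁ hq hA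
  O₂ := O₂ hq hm hA
  ρ₁ := ρ₁ hq hm hA H3
  ρ₂ := ρ₂ hq hm hA H3
  ρ₁_eq_zero_iff := ρ₁_eq_zero_iff hq hm hA H3
  ρ₂_eq_zero_iff := ρ₂_eq_zero_iff hq hm hA H3
  mem_O₁_iff := algebraMap_mem_O₁_iff hq hA
  mem_O₂_iff := algebraMap_mem_O₂_iff hq hm hA
  ρ₁_algebraMap a := ρ₁_algebraMap hq hm hA H3 a _
  ρ₂_algebraMap a := ρ₂_algebraMap hq hm hA H3 a _
  surj := surj hq hm hA H3
  V := verMap κ q m
  σ := frobAut κ q m
  σ_algebraMap := frobAut_algebraMap κ q m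
  V_σ := verMap_frobAut κ q m
  α := alphaB m q
  β := betaB m q
  α_mem₁ _ hf := alpha_mem₁ hq hA hf
  α_mem₂ _ hf := alpha_mem₂ hq hm hA hf
  β_mem₁ _ hf := beta_mem₁ hq hA hf
  β_mem₂ _ hf := beta_mem₂ hq hm hA hf
  ρ₁_α f hf := ρ₁_α hq hm hA H3 f hf _
  ρ₂_α f hf := ρ₂_α hq hm hA H3 f hf _
  ρ₁_β f hf := ρ₁_β hq hm hA H3 f hf _
  ρ₂_β f hf := ρ₂_β hq hm hA H3 f hf _
  j := jm m
  j_mem := jm_mem hq hA H3
  ρ_j_transcendental := transcendental_ρ_jm hq hA H3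
  V_j := verMap_ρ_jm hq hA H3
  ψ := dedekindPsi m
  ψ_pos := S18aux.dedekindPsi_pos (NeZero.ne m)
  finrank_Fm := finrank_jdB m
  finrank_F' := finrank_jm' hq hA H3
  finrank_α := finrank_alpha_jm hq hm
  finrank_β := finrank_beta_jm hq hm
  cusp_α v := (cusp hq hm v).1
  cusp_β v := (cusp hq hm v).2
  c₀ := (exists_good_jm hq hA H3 H2).choose
  good := (exists_good_jm hq hA H3 H2).choose_spec

end Inst

end Fermat.Agent.TwoGauss
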