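import Mathlib
import Fermat.Agent.TwoGauss.Instance

/-!
# Galois action on the two-component reduction data of `X₀(m q)`
-/

set_option autoImplicit false
set_option linter.unusedSectionVars false

open ModularCurve HahnSeries Module AlgebraicCurve
open scoped IntermediateField
open Fermat.Agent.GaussVal Fermat.Agent.FF Fermat.Agent.RR
open scoped Fermat.Agent.GaussVal

noncomputable section

namespace Fermat.Agent.TwoGauss

/-- the algebraic numbers -/
local notation "𝕂" => AlgebraicClosure ℚ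

section CoeffEnd

variable {k : Type*} [Field k]

/-- action of an endomorphism of the coefficients on the function field -/
def coeffEnd (s : k →+* k) (m : ℕ) :
    modularFunctionFieldFullC k m →+* modularFunctionFieldFullC k m where
  toFun x := ⟨coeffMap s x, coeffMap_mem_fullC _ m x.2⟩
  map_one' := Subtype.ext (map_one (coeffMap s))
  map_mul' _ _ := Subtype.ext (map_mul (coeffMap s) _ _)
  map_zero' := Subtype.ext (map_zero (coeffMap s))
  map_add' _ _ := Subtype.ext (map_add (coeffMap s) _ _)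

theorem coe_coeffEnd (s : k →+* k) (m : ℕ) (x : modularFunctionFieldFullC k m) :
    ((coeffEnd s m x : modularFunctionFieldFullC k m) : LaurentSeries k) = coeffMap s x := rfl

theorem coeffEnd_id (m : ℕ) (x : modularFunctionFieldFullC k m) :
    coeffEnd (RingHom.id k) m x = x := by
  apply Subtype.ext
  rw [coe_coeffEnd, coeffMap_id]

theorem coeffEnd_algebraMap (s : k →+* k) (m : ℕ) (c : k) :
    coeffEnd s m (algebraMap k _ c) = algebraMap k _ (s c) :=
  Subtype.ext (coeffMap_algebraMap s c)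

theorem coeffEnd_frobenius (q m : ℕ) [Fact q.Prime] [CharP k q] [PerfectRing k q]
    (x : modularFunctionFieldFullC k m) : coeffEnd (frobenius k q) m x = frobAut k q m x := rfl

end CoeffEnd

section Gal

variable {A : ValuationSubring (AlgebraicClosure ℚ)} {q m : ℕ} [NeZero m]
  [Fact q.Prime] [CharP (IsLocalRing.ResidueField A) q]
  (hq : q.Prime) (hm : ¬ q ∣ m) (hA : A.LiesOverPrime q)
  (H3 : S18aux.DegThm (IsLocalRing.ResidueField A) m)

/-- the residue field -/
local notation "κ" => IsLocalRing.ResidueField A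

variable {σ : AlgebraicClosure ℚ ≃ₐ[ℚ] AlgebraicClosure ℚ}
  {s : IsLocalRing.ResidueField A →+* IsLocalRing.ResidueField A}
  (h : ResidueCompat A (σ : AlgebraicClosure ℚ →+* AlgebraicClosure ℚ) s)

/-- the coefficientwise Galois action -/
abbrev ga (N : ℕ) (σ : AlgebraicClosure ℚ ≃ₐ[ℚ] AlgebraicClosure ℚ) :
    modularFunctionFieldBar N ≃+* modularFunctionFieldBar N :=
  arithmeticRingAut (modularFunctionFieldFull N) σ

theorem coe_ga (N : ℕ) (σ : AlgebraicClosure ℚ ≃ₐ[ℚ] AlgebraicClosure ℚ)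
    (x : modularFunctionFieldBar N) :
    ((ga N σ x : modularFunctionFieldBar N) : LaurentSeries 𝕂) =
      coeffMap (σ : 𝕂 →+* 𝕂) (x : LaurentSeries 𝕂) :=
  coe_arithmeticRingAut_apply _ _ _

include h in
theorem ga_mem₁ {x : modularFunctionFieldBar (m * q)} (hx : x ∈ O₁ hq hA) :
    ga (m * q) σ x ∈ O₁ hq hA := by
  change ((ga (m * q) σ x : modularFunctionFieldBar (m * q)) : LaurentSeries 𝕂) ∈ gaussSubring A
  rw [coe_ga]
  exact h.coeffMap_mem hx

include h in
theorem r₁_ga {x : modularFunctionFieldBar (m * q)} (hx : x ∈ O₁ hq hA)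
    (hx' : ga (m * q) σ x ∈ O₁ hq hA) :
    r₁ hq hA ⟨ga (m * q) σ x, hx'⟩ = coeffMap s (r₁ hq hA ⟨x, hx⟩) := by
  have e := h.gaussRed_coeffMap ⟨(x : LaurentSeries 𝕂), hx⟩ (h.coeffMap_mem hx)
  refine Eq.trans ?_ e
  change gaussRed A ⟨_, _⟩ = gaussRed A ⟨_, _⟩
  congr 1

include h in
theorem ga_mem₂ {x : modularFunctionFieldBar (m * q)} (hx : x ∈ O₂ hq hm hA) :
    ga (m * q) σ x ∈ O₂ hq hm hA := by
  rw [mem_O₂_iff, wq_arithmetic]
  exact ga_mem₁ hq hA h hx

include h in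
theorem r₂_ga {x : modularFunctionFieldBar (m * q)} (hx : x ∈ O₂ hq hm hA)
    (hx' : ga (m * q) σ x ∈ O₂ hq hm hA) :
    r₂ hq hm hA ⟨ga (m * q) σ x, hx'⟩ = coeffMap s (r₂ hq hm hA ⟨x, hx⟩) := by
  have hx1 : wq hq hm x ∈ O₁ hq hA := (mem_O₂_iff hq hm hA x).mp hx
  have e : (⟨wq hq hm (ga (m * q) σ x), (mem_O₂_iff hq hm hA _).mp hx'⟩ : O₁ hq hA) =
      ⟨ga (m * q) σ (wq hq hm x), ga_mem₁ hq hA h hx1⟩ := Subtype.ext (wq_arithmetic hq hm σ x)
  have e1 := r₁_ga hq hA h hx1 (ga_mem₁ hq hA h hx1)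
  have e2 := r₂_apply hq hm hA _ hx'
  have e3 := r₂_apply hq hm hA _ hx
  rw [e2, e3, ← e1]
  exact congrArg (r₁ hq hA) e

include h in
/-- **Galois action and the first reduction** -/
theorem ρ₁_ga {x : modularFunctionFieldBar (m * q)} (hx : x ∈ O₁ hq hA)
    (hx' : ga (m * q) σ x ∈ O₁ hq hA) :
    ρ₁ hq hm hA H3 ⟨ga (m * q) σ x, hx'⟩ = coeffEnd s m (ρ₁ hq hm hA H3 ⟨x, hx⟩) := by
  apply Subtype.ext
  rw [coe_ρ₁, coe_coeffEnd, coe_ρ₁, r₁_ga hq hA h hx]

include h in
/-- **Galois action and the second reduction** -/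
theorem ρ₂_ga {x : modularFunctionFieldBar (m * q)} (hx : x ∈ O₂ hq hm hA)
    (hx' : ga (m * q) σ x ∈ O₂ hq hm hA) :
    ρ₂ hq hm hA H3 ⟨ga (m * q) σ x, hx'⟩ = coeffEnd s m (ρ₂ hq hm hA H3 ⟨x, hx⟩) := by
  apply Subtype.ext
  rw [coe_ρ₂, coe_coeffEnd, coe_ρ₂, r₂_ga hq hm hA h hx]

include h in
theorem ga_mem_Gm {x : modularFunctionFieldBar m} (hx : x ∈ (Gm hq hA H3).O) :
    ga m σ x ∈ (Gm hq hA H3).O := by
  change ((ga m σ x : modularFunctionFieldBar m) : LaurentSeries 𝕂) ∈ gaussSubring A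
  rw [coe_ga]
  exact h.coeffMap_mem hx

include h in
/-- **Galois action and the reduction of level `m`** -/
theorem ρ_ga {x : modularFunctionFieldBar m} (hx : x ∈ (Gm hq hA H3).O)
    (hx' : ga m σ x ∈ (Gm hq hA H3).O) :
    (Gm hq hA H3).ρ ⟨ga m σ x, hx'⟩ = coeffEnd s m ((Gm hq hA H3).ρ ⟨x, hx⟩) := by
  apply Subtype.ext
  rw [coe_coeffEnd, coe_Gm_ρ hq hA H3 _ hx', coe_Gm_ρ hq hA H3 _ hx]
  have e := h.gaussRed_coeffMap ⟨(x : LaurentSeries 𝕂), hx⟩ (h.coeffMap_mem hx)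
  refine Eq.trans ?_ e
  congr 1

omit [CharP (IsLocalRing.ResidueField A) q] in
theorem alphaB_ga (x : modularFunctionFieldBar m) :
    alphaB m q (ga m σ x) = ga (m * q) σ (alphaB m q x) := by
  apply Subtype.ext
  rw [coe_heckeAlphaBar, coe_ga, coe_ga, coe_heckeAlphaBar]

omit [CharP (IsLocalRing.ResidueField A) q] in
theorem betaB_ga (x : modularFunctionFieldBar m) :
    betaB m q (ga m σ x) = ga (m * q) σ (betaB m q x) := by
  apply Subtype.ext
  rw [coe_heckeBetaBar, coe_ga, coe_ga, coe_heckeBetaBar, coeffMap_qExpand]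

theorem ga_jm : ga m σ (jm m) = jm m := arithmeticRingAut_jdB σ _

end Gal

end Fermat.Agent.TwoGauss
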