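import Mathlib
import Fermat.Agent.TwoGauss.Galois
import Fermat.Agent.TwoComp.Act
import Fermat.Prelude.Def_ModularCurve_ArithmeticGalois

/-!
# The Galois action on the two-component reduction data of `X₀(m q)`, packaged
-/

set_option autoImplicit false
set_option linter.unusedSectionVars false

open ModularCurve HahnSeries Module AlgebraicCurve
open scoped IntermediateField
open Fermat.Agent.GaussVal Fermat.Agent.FF Fermat.Agent.RR
open scoped Fermat.Agent.GaussVal

noncomputable section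

namespace Fermat.Agent.TwoGauss

/-- the algebraic numbers -/
local notation "𝕂" => AlgebraicClosure ℚ

section Act

variable {A : ValuationSubring (AlgebraicClosure ℚ)} {q m : ℕ} [NeZero m]
  [Fact q.Prime] [CharP (IsLocalRing.ResidueField A) q]
  [IsAlgClosed (IsLocalRing.ResidueField A)] [PerfectRing (IsLocalRing.ResidueField A) q]
  (hq : q.Prime) (hm : ¬ q ∣ m) (hA : A.LiesOverPrime q)
  (H3 : S18aux.DegThm (IsLocalRing.ResidueField A) m)
  (H2 : genusFF (AlgebraicClosure ℚ) (modularFunctionFieldBar m) ≤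
    genusFF (IsLocalRing.ResidueField A) (modularFunctionFieldFullC (IsLocalRing.ResidueField A) m))

/-- the residue field -/
local notation "κ" => IsLocalRing.ResidueField A

theorem mem_mkData_O₁ (x : modularFunctionFieldBar (m * q)) :
    x ∈ (mkData hq hm hA H3 H2).O₁ ↔ (x : LaurentSeries 𝕂) ∈ gaussSubring A := Iff.rfl

theorem mem_mkData_O₂ (x : modularFunctionFieldBar (m * q)) :
    x ∈ (mkData hq hm hA H3 H2).O₂ ↔
      ((wq hq hm x : modularFunctionFieldBar (m * q)) : LaurentSeries 𝕂) ∈ gaussSubring A := Iff.rfl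

theorem mem_mkData_G_O (x : modularFunctionFieldBar m) :
    x ∈ (mkData hq hm hA H3 H2).G.O ↔ (x : LaurentSeries 𝕂) ∈ gaussSubring A := Iff.rfl

theorem coe_mkData_ρ₁ (x : modularFunctionFieldBar (m * q))
    (hx : x ∈ (mkData hq hm hA H3 H2).O₁) :
    (((mkData hq hm hA H3 H2).ρ₁ ⟨x, hx⟩ : modularFunctionFieldFullC κ m) : LaurentSeries κ) =
      gaussRed A ⟨(x : LaurentSeries 𝕂), hx⟩ :=
  coe_ρ₁ hq hm hA H3 ⟨x, hx⟩

theorem coe_mkData_ρ₂ (x : modularFunctionFieldBar (m * q))
    (hx : x ∈ (mkData hq hm hA H3 H2).O₂) :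
    (((mkData hq hm hA H3 H2).ρ₂ ⟨x, hx⟩ : modularFunctionFieldFullC κ m) : LaurentSeries κ) =
      gaussRed A ⟨((wq hq hm x : modularFunctionFieldBar (m * q)) : LaurentSeries 𝕂), hx⟩ :=
  coe_ρ₂ hq hm hA H3 ⟨x, hx⟩

theorem coe_mkData_G_ρ (x : modularFunctionFieldBar m)
    (hx : x ∈ (mkData hq hm hA H3 H2).G.O) :
    (((mkData hq hm hA H3 H2).G.ρ ⟨x, hx⟩ : modularFunctionFieldFullC κ m) : LaurentSeries κ) =
      gaussRed A ⟨(x : LaurentSeries 𝕂), hx⟩ :=
  coe_Gm_ρ hq hA H3 x hx

theorem coe_mkData_V (y : modularFunctionFieldFullC κ m) :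
    (((mkData hq hm hA H3 H2).V y : modularFunctionFieldFullC κ m) : LaurentSeries κ) =
      qExpand κ q (y : LaurentSeries κ) := rfl

theorem coe_mkData_σ (y : modularFunctionFieldFullC κ m) :
    (((mkData hq hm hA H3 H2).σ y : modularFunctionFieldFullC κ m) : LaurentSeries κ) =
      coeffMap (frobenius κ q) (y : LaurentSeries κ) := rfl

theorem mkData_α : (mkData hq hm hA H3 H2).α = heckeAlphaBar 𝕂 m q := rfl

theorem mkData_β : (mkData hq hm hA H3 H2).β = heckeBetaBar 𝕂 m q := rfl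

theorem mkData_A : (mkData hq hm hA H3 H2).G.A = A := rfl

theorem mkData_res : (mkData hq hm hA H3 H2).G.res = IsLocalRing.residue A := rfl

/-- **Elements of the decomposition group act on the two-component data.** -/
theorem act_mkData {σ : 𝕂 ≃ₐ[ℚ] 𝕂} {s : IsLocalRing.ResidueField A →+* IsLocalRing.ResidueField A}
    (h : ResidueCompat A (σ : 𝕂 →+* 𝕂) s) :
    (mkData hq hm hA H3 H2).ActS (arithmeticGalois (modularFunctionFieldFull (m * q)) σ)
      (coeffEnd s m) s where
  mem₁ _ hf := ga_mem₁ hq hA h hf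
  mem₂ _ hf := ga_mem₂ hq hm hA h hf
  ρ₁ _ hf := ρ₁_ga hq hm hA H3 h hf _
  ρ₂ _ hf := ρ₂_ga hq hm hA H3 h hf _
  e_algebraMap := coeffEnd_algebraMap s m
  e_V f := Subtype.ext (by
    rw [coe_coeffEnd, coe_mkData_V, coe_mkData_V, coe_coeffEnd, coeffMap_qExpand])
  e_σ f := Subtype.ext (by
    rw [coe_coeffEnd, coe_mkData_σ, coe_mkData_σ, coe_coeffEnd, coeffMap_coeffMap,
      coeffMap_coeffMap]
    exact coeffMap_congr (RingHom.ext fun c => by
      rw [RingHom.comp_apply, RingHom.comp_apply, frobenius_def, frobenius_def, map_pow]) _)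
  αj := by
    change ga (m * q) σ (alphaB m q (jm m)) = alphaB m q (jm m)
    rw [← alphaB_ga, ga_jm]
  βj := by
    change ga (m * q) σ (betaB m q (jm m)) = betaB m q (jm m)
    rw [← betaB_ga, ga_jm]
  memA := h.mem
  res := h.residue

/-- inertia acts trivially on the special fibre -/
theorem act_mkData_inertia {σ : 𝕂 ≃ₐ[ℚ] 𝕂} (hσ : σ ∈ A.inertiaSubgroupIn ℚ) :
    (mkData hq hm hA H3 H2).ActS (arithmeticGalois (modularFunctionFieldFull (m * q)) σ)
      (RingHom.id _) (RingHom.id _) := by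
  have h := act_mkData hq hm hA H3 H2 (residueCompat_of_inertia hσ)
  have e : coeffEnd (RingHom.id κ) m = RingHom.id _ := RingHom.ext fun x => coeffEnd_id m x
  rwa [e] at h

/-- Frobenius lifts act by the Frobenius of the coefficients on the special fibre -/
theorem act_mkData_frobenius {σ : 𝕂 ≃ₐ[ℚ] 𝕂} (hσ : A.IsFrobeniusAt σ q) :
    (mkData hq hm hA H3 H2).ActS (arithmeticGalois (modularFunctionFieldFull (m * q)) σ)
      ((mkData hq hm hA H3 H2).σ : modularFunctionFieldFullC κ m →+* modularFunctionFieldFullC κ m)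
      (frobenius κ q) :=
  act_mkData hq hm hA H3 H2 (residueCompat_of_frobenius hσ)

end Act

end Fermat.Agent.TwoGauss
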