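import Mathlib
import Fermat.Agent.GaussVal.Discrete

/-!
# The value group of a place of `ℚ̄` above a prime is archimedean
-/

set_option autoImplicit false

noncomputable section

namespace Fermat.Agent.TwoGauss

variable {K : Type*} [Field K] [CharZero K] [Algebra.IsAlgebraic ℚ K] {A : ValuationSubring K}
  {ℓ : ℕ}

/-- The value group of `A` is archimedean. -/
theorem exists_pow_div_mem (hℓ : ℓ.Prime) (hA : A.LiesOverPrime ℓ) {c : K} (hc : c ∈ A.nonunits)
    {d : K} (hd : d ≠ 0) : ∃ n : ℕ, c ^ n / d ∈ A := by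
  rcases eq_or_ne c 0 with rfl | hc0
  · exact ⟨1, by rw [pow_one, zero_div]; exact A.zero_mem⟩
  by_cases hd1 : 1 ≤ A.valuation d
  · refine ⟨0, ?_⟩
    rw [← ValuationSubring.valuation_le_one_iff, pow_zero, map_div₀, map_one]
    exact div_le_one_of_le₀ hd1 zero_le
  rw [not_le] at hd1
  have hci := Algebra.IsAlgebraic.isAlgebraic (R := ℚ) c
  have hdi := Algebra.IsAlgebraic.isAlgebraic (R := ℚ) d
  obtain ⟨P, hP, hPc⟩ := hci
  obtain ⟨Q, hQ, hQd⟩ := hdi
  obtain ⟨m, hm0, -, k, hk⟩ := GaussVal.exists_pow_zpow A hℓ hA hc0 hP hPc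
  obtain ⟨m', hm0', -, k', hk'⟩ := GaussVal.exists_pow_zpow A hℓ hA hd hQ hQd
  have hv1 := GaussVal.val_prime_lt_one A hA
  have hv0 := GaussVal.val_prime_ne_zero A hℓ
  have hvpos : 0 < A.valuation (ℓ : K) := zero_lt_iff.mpr hv0
  rw [ValuationSubring.mem_nonunits_iff] at hc
  have hlt : A.valuation (ℓ : K) ^ k < 1 := by
    rw [← hk]; exact pow_lt_one₀ zero_le hc hm0.ne'
  have hkpos : 0 < k := by
    by_contra hcon
    rw [not_lt] at hcon
    exact absurd hlt (not_lt.mpr (one_le_zpow_of_nonpos₀ hvpos hv1.le hcon))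
  refine ⟨m * k'.toNat, ?_⟩
  rw [← ValuationSubring.valuation_le_one_iff, map_div₀, map_pow, pow_mul, hk]
  have hdpos : 0 < A.valuation d := zero_lt_iff.mpr ((map_ne_zero A.valuation).mpr hd)
  rw [div_le_one₀ hdpos]
  calc (A.valuation (ℓ : K) ^ k) ^ k'.toNat = A.valuation (ℓ : K) ^ (k * k'.toNat) := by
        rw [zpow_mul, zpow_natCast]
    _ ≤ A.valuation (ℓ : K) ^ k' := by
        refine zpow_le_zpow_right_of_le_one₀ hvpos hv1.le ?_
        have h1 : k' ≤ k'.toNat := Int.self_le_toNat k'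
        have h2 : (0 : ℤ) ≤ k'.toNat := Int.natCast_nonneg _
        nlinarith
    _ = A.valuation d ^ m' := hk'.symm
    _ ≤ A.valuation d := pow_le_of_le_one zero_le hd1.le hm0'.ne'

end Fermat.Agent.TwoGauss
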