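import Mathlib
import Fermat.Agent.TwoGauss.ActInst
import Fermat.Agent.TwoGauss.Arch
import Fermat.Agent.TwoComp.Bridge
import Fermat.Agent.GoodRed.GenusAll

/-!
# The two-component reduction data of `X₀(m q)`, without hypotheses
-/

set_option autoImplicit false
set_option linter.unusedSectionVars false
set_option linter.style.haveILetI false

open ModularCurve HahnSeries Module AlgebraicCurve
open scoped IntermediateField
open Fermat.Agent.GaussVal Fermat.Agent.FF Fermat.Agent.RR
open scoped Fermat.Agent.GaussVal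

noncomputable section

namespace Fermat.Agent.TwoGauss

/-- the algebraic numbers -/
local notation "𝕂" => AlgebraicClosure ℚ

section Arch

variable {A : ValuationSubring (AlgebraicClosure ℚ)} {q m : ℕ} [NeZero m]
  [Fact q.Prime] [CharP (IsLocalRing.ResidueField A) q]
  [IsAlgClosed (IsLocalRing.ResidueField A)] [PerfectRing (IsLocalRing.ResidueField A) q]
  (hq : q.Prime) (hm : ¬ q ∣ m) (hA : A.LiesOverPrime q)
  (H3 : S18aux.DegThm (IsLocalRing.ResidueField A) m)
  (H2 : genusFF (AlgebraicClosure ℚ) (modularFunctionFieldBar m) ≤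
    genusFF (IsLocalRing.ResidueField A) (modularFunctionFieldFullC (IsLocalRing.ResidueField A) m))

theorem arch_mkData : (mkData hq hm hA H3 H2).Arch :=
  fun _ hc _ hd => exists_pow_div_mem hq hA hc hd

/-- inertia acts trivially on the toric classes of `J₀(m q)` -/
theorem core_mkData {n : ℕ} (hn : (n : IsLocalRing.ResidueField A) ≠ 0) :
    (mkData hq hm hA H3 H2).Core n := by
  haveI : IsFF 𝕂 (modularFunctionFieldBar m) := isFF_m
  haveI : IsFF (IsLocalRing.ResidueField A)
    (modularFunctionFieldFullC (IsLocalRing.ResidueField A) m) := isFF_m' (m := m) H3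
  haveI : IsFF 𝕂 (modularFunctionFieldBar (m * q)) := isFF_m
  exact TwoComp.Data.core hq.two_le (arch_mkData hq hm hA H3 H2) hn

/-- **(T)**: the square of a Frobenius lift acts as `q²` on the toric classes of `J₀(m q)` -/
theorem smul_smul_mkData {n : ℕ} (hn : (n : IsLocalRing.ResidueField A) ≠ 0)
    {σ : 𝕂 ≃ₐ[ℚ] 𝕂} (hσ : A.IsFrobeniusAt σ q) {x : JZero (m * q)}
    (hx : (mkData hq hm hA H3 H2).Toric n x) : σ • σ • x = (q ^ 2) • x := by
  haveI : IsFF 𝕂 (modularFunctionFieldBar m) := isFF_m
  haveI : IsFF (IsLocalRing.ResidueField A)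
    (modularFunctionFieldFullC (IsLocalRing.ResidueField A) m) := isFF_m' (m := m) H3
  haveI : IsFF 𝕂 (modularFunctionFieldBar (m * q)) := isFF_m
  exact TwoComp.Data.smul_smul_of_toric hq.two_le (arch_mkData hq hm hA H3 H2) hn
    (act_mkData_frobenius hq hm hA H3 H2 hσ) hx

include hq hm hA H3 H2 in
/-- **Unipotence of inertia** on the prime-to-`q` torsion of `J₀(m q)` -/
theorem unipotent_mkData {n : ℕ} (hn : (n : IsLocalRing.ResidueField A) ≠ 0)
    {σ τ : 𝕂 ≃ₐ[ℚ] 𝕂} (hσ : σ ∈ A.inertiaSubgroupIn ℚ) (hτ : τ ∈ A.inertiaSubgroupIn ℚ)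
    {x : JZero (m * q)} (hx : n • x = 0) : τ • (σ • x - x) = σ • x - x := by
  haveI : IsFF 𝕂 (modularFunctionFieldBar m) := isFF_m
  haveI : IsFF (IsLocalRing.ResidueField A)
    (modularFunctionFieldFullC (IsLocalRing.ResidueField A) m) := isFF_m' (m := m) H3
  haveI : IsFF 𝕂 (modularFunctionFieldBar (m * q)) := isFF_m
  exact (act_mkData_inertia hq hm hA H3 H2 hσ).toAct_id.unipotent
    (act_mkData_inertia hq hm hA H3 H2 hτ).toAct_id hq.two_le (arch_mkData hq hm hA H3 H2) hn hx

end Arch

section Uncond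

variable {q m : ℕ} [NeZero m] (hq : q.Prime) (hm : ¬ q ∣ m)
  {A : ValuationSubring (AlgebraicClosure ℚ)} (hA : A.LiesOverPrime q)

include hq hA in
/-- the residue field has characteristic `q` -/
theorem charP_res : CharP (IsLocalRing.ResidueField A) q := by
  haveI : Fact q.Prime := ⟨hq⟩
  exact TEll.charP_residueField A q hA

/-- the residue field is perfect -/
theorem perfectRing_res [Fact q.Prime] [CharP (IsLocalRing.ResidueField A) q] :
    PerfectRing (IsLocalRing.ResidueField A) q := inferInstance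

/-- **The two-component reduction data of `X₀(m q)`**, without hypotheses -/
def twoComp [Fact q.Prime] [CharP (IsLocalRing.ResidueField A) q] :
    TwoComp.Data 𝕂 (modularFunctionFieldBar m) (modularFunctionFieldBar (m * q))
      (IsLocalRing.ResidueField A) (modularFunctionFieldFullC (IsLocalRing.ResidueField A) m) q :=
  mkData hq hm hA (GoodRed.degThm_res hq hA (NeZero.ne m) hm) (GoodRed.genus_le_all hq hA m hm)

include hq hm hA in
/-- **Unipotence of inertia at `q`** on the prime-to-`q` torsion of `J₀(m q)`, `q ∤ m` -/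
theorem inertia_unipotent {n : ℕ} (hn : ¬ q ∣ n)
    {σ τ : 𝕂 ≃ₐ[ℚ] 𝕂} (hσ : σ ∈ A.inertiaSubgroupIn ℚ) (hτ : τ ∈ A.inertiaSubgroupIn ℚ)
    {x : JZero (m * q)} (hx : n • x = 0) : τ • (σ • x - x) = σ • x - x := by
  haveI : Fact q.Prime := ⟨hq⟩
  haveI : CharP (IsLocalRing.ResidueField A) q := charP_res hq hA
  exact unipotent_mkData hq hm hA (GoodRed.degThm_res hq hA (NeZero.ne m) hm)
    (GoodRed.genus_le_all hq hA m hm)
    (by rwa [Ne, CharP.cast_eq_zero_iff (IsLocalRing.ResidueField A) q]) hσ hτ hx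

end Uncond

end Fermat.Agent.TwoGauss
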